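/-
IHARA track, package (A) [GRP] (helper9), part 1: **the abstract diamond groups**
`Δ = ∏_i C_{m i}` with their standard generators: orders, generation and the universal property
(the `[GRP]` fields of `IhaHecke`).
-/
import Mathlib

set_option autoImplicit false
set_option linter.unusedSectionVars false

namespace Fermat.Agent.Ihara

/-- the product of cyclic groups `∏_i C_{m i}`, written multiplicatively -/
abbrev IhqDelta {ι : Type*} (m : ι → ℕ) : Type _ := Multiplicative (∀ i : ι, ZMod (m i))

section

variable {ι : Type*} [DecidableEq ι] (m : ι → ℕ)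

/-- the standard generator of the `i`-th factor -/
def ihqGen (i : ι) : IhqDelta m := Multiplicative.ofAdd (Pi.single i 1)

theorem ihqGen_toAdd (i : ι) : Multiplicative.toAdd (ihqGen m i) = Pi.single i 1 := rfl

theorem ihqGen_apply_same (i : ι) : Multiplicative.toAdd (ihqGen m i) i = 1 := by
  rw [ihqGen_toAdd, Pi.single_eq_same]

theorem ihqGen_apply_ne {i j : ι} (h : j ≠ i) : Multiplicative.toAdd (ihqGen m i) j = 0 := by
  rw [ihqGen_toAdd, Pi.single_eq_of_ne h]

end

section

variable {ι : Type*} [Fintype ι] [DecidableEq ι] (m : ι → ℕ) [∀ i, NeZero (m i)]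

instance ihqDelta_finite : Finite (IhqDelta m) :=
  inferInstanceAs (Finite (Multiplicative (∀ i : ι, ZMod (m i))))

/-- the order of the standard generator -/
theorem ihq_orderOf_gen (i : ι) : orderOf (ihqGen m i) = m i := by
  unfold ihqGen
  rw [orderOf_ofAdd_eq_addOrderOf]
  have h := addOrderOf_injective (AddMonoidHom.single (fun i => ZMod (m i)) i)
    (by intro x y hxy; simpa using hxy) (1 : ZMod (m i))
  rw [AddMonoidHom.single_apply] at h
  rw [h, ZMod.addOrderOf_one]

/-- every element is the product of the powers of the generators -/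
theorem ihq_eq_prod_gen (g : IhqDelta m) :
    g = ∏ i, ihqGen m i ^ (Multiplicative.toAdd g i).val := by
  apply Multiplicative.toAdd.injective
  rw [toAdd_prod]
  simp only [toAdd_pow, ihqGen_toAdd]
  funext j
  rw [Finset.sum_apply, Finset.sum_eq_single j]
  · rw [Pi.smul_apply, Pi.single_eq_same, nsmul_eq_mul, mul_one, ZMod.natCast_zmod_val]
  · intro i _ hij
    rw [Pi.smul_apply, Pi.single_eq_of_ne (Ne.symm hij), smul_zero]
  · intro h
    exact absurd (Finset.mem_univ j) h

/-- the standard generators generate -/
theorem ihq_closure_gen : Subgroup.closure (Set.range (ihqGen m)) = ⊤ := by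
  rw [eq_top_iff]
  intro g _
  rw [ihq_eq_prod_gen m g]
  exact Subgroup.prod_mem _ fun i _ =>
    Subgroup.pow_mem _ (Subgroup.subset_closure (Set.mem_range_self i)) _

/-- **the universal property** -/
theorem ihq_univ {Y : Type*} [CommMonoid Y] (y : ι → Y) (hy : ∀ i, y i ^ (m i) = 1) :
    ∃ f : IhqDelta m →* Y, ∀ i, f (ihqGen m i) = y i := by
  have hmod : ∀ (i : ι) (k : ℕ), y i ^ (k % m i) = y i ^ k := by
    intro i k
    conv_rhs => rw [← Nat.mod_add_div k (m i), pow_add, pow_mul, hy i, one_pow, mul_one]
  refine ⟨{ toFun := fun g => ∏ i, y i ^ (Multiplicative.toAdd g i).val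
            map_one' := by simp
            map_mul' := fun g h => by
              rw [← Finset.prod_mul_distrib]
              refine Finset.prod_congr rfl fun i _ => ?_
              rw [toAdd_mul, Pi.add_apply, ZMod.val_add, hmod, pow_add] }, fun i => ?_⟩
  show ∏ j, y j ^ (Multiplicative.toAdd (ihqGen m i) j).val = y i
  rw [ihqGen_toAdd, Finset.prod_eq_single i]
  · rw [Pi.single_eq_same]
    rcases Nat.lt_or_ge 1 (m i) with h1 | h1
    · have : Fact (1 < m i) := ⟨h1⟩
      rw [ZMod.val_one, pow_one]
    · have h2 : m i = 1 := le_antisymm h1 (Nat.pos_of_ne_zero (NeZero.ne (m i)))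
      have h3 : y i = 1 := by have := hy i; rwa [h2, pow_one] at this
      rw [h3, one_pow]
  · intro j _ hj
    rw [Pi.single_eq_of_ne hj, ZMod.val_zero, pow_zero]
  · intro h
    exact absurd (Finset.mem_univ i) h

end

end Fermat.Agent.Ihara
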