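/-
IHARA track, package (A) [GRP] (helper9), part 2: **the character groups of `(ℤ/M)ˣ`**.

For a family of distinct primes `q i ∣ M` and numbers `m i ∣ q i - 1`:
`ihqKappa h : (ZMod M)ˣ →* IhqDelta m = ∏_i C_{m i}` (through the CRT components, a surjection
`(ZMod (q i))ˣ ↠ C_{m i}` being chosen at every `i`), its surjectivity, the description of its kernel
`{d | ∀ i, (d mod q i) ^ ((q i - 1) / m i) = 1}` (independent of the choices), the behaviour on the
CRT components, sub-families, and the `p`-group properties when every `m i` is a power of `p`.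
-/
import Mathlib
import Fermat.Agent.Lib.Ihara.Grp.Delta

set_option autoImplicit false
set_option linter.unusedSectionVars false
set_option linter.unusedVariables false
set_option linter.style.haveILetI false

namespace Fermat.Agent.Ihara

open Multiplicative

/-- **local**: for `m ∣ q - 1` a surjection `(ℤ/q)ˣ ↠ C_m` with kernel `{u | u ^ ((q-1)/m) = 1}` -/
theorem ihq_exists_loc (q m : ℕ) (hq : q.Prime) (hm : m ∣ q - 1) :
    ∃ f : (ZMod q)ˣ →* Multiplicative (ZMod m), Function.Surjective f ∧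
      ∀ u, f u = 1 ↔ u ^ ((q - 1) / m) = 1 := by
  haveI := Fact.mk hq
  obtain ⟨g, hg⟩ := IsCyclic.exists_generator (α := (ZMod q)ˣ)
  have hord : orderOf g = q - 1 := by
    rw [orderOf_eq_card_of_forall_mem_zpowers hg, Nat.card_eq_fintype_card, ZMod.card_units]
  have hq1 : q - 1 ≠ 0 := by have := hq.two_le; omega
  have hm0 : m ≠ 0 := by
    rintro rfl
    exact hq1 (Nat.eq_zero_of_zero_dvd hm)
  haveI : NeZero m := ⟨hm0⟩
  have hg' : orderOf (ofAdd (1 : ZMod m)) = m := by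
    rw [orderOf_ofAdd_eq_addOrderOf, ZMod.addOrderOf_one]
  have hdvd : orderOf (ofAdd (1 : ZMod m)) ∣ orderOf g := by rw [hg', hord]; exact hm
  have hfg : monoidHomOfForallMemZpowers hg hdvd g = ofAdd 1 :=
    monoidHomOfForallMemZpowers_apply_gen hg hdvd
  refine ⟨monoidHomOfForallMemZpowers hg hdvd, ?_, ?_⟩
  · intro y
    refine ⟨g ^ (toAdd y).val, ?_⟩
    rw [map_pow, hfg, ← ofAdd_nsmul, nsmul_one, ZMod.natCast_zmod_val]
    rfl
  · intro u
    obtain ⟨k, rfl⟩ := Subgroup.mem_zpowers_iff.mp (hg u)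
    rw [map_zpow, hfg, ← zpow_natCast, ← zpow_mul, ← orderOf_dvd_iff_zpow_eq_one,
      ← orderOf_dvd_iff_zpow_eq_one, hg', hord]
    obtain ⟨t, ht⟩ := hm
    have ht0 : t ≠ 0 := by
      rintro rfl
      rw [mul_zero] at ht
      exact hq1 ht
    rw [ht, Nat.mul_div_cancel_left t (Nat.pos_of_ne_zero hm0)]
    push_cast
    rw [mul_comm k, mul_comm (m : ℤ)]
    exact (mul_dvd_mul_iff_left (by exact_mod_cast ht0)).symm

section

variable {ι : Type*} (M : ℕ) (q m : ι → ℕ)

/-- the hypotheses: distinct primes `q i ∣ M` and `m i ∣ q i - 1` -/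
structure IhqData : Prop where
  prime : ∀ i, (q i).Prime
  inj : Function.Injective q
  dvd : ∀ i, q i ∣ M
  mdvd : ∀ i, m i ∣ q i - 1

variable {M q m}

theorem IhqData.m_ne_zero (h : IhqData M q m) (i : ι) : m i ≠ 0 := by
  intro h0
  have h1 := h.mdvd i
  rw [h0] at h1
  have := (h.prime i).two_le
  have h2 := Nat.eq_zero_of_zero_dvd h1
  omega

theorem IhqData.neZero (h : IhqData M q m) (i : ι) : NeZero (m i) := ⟨h.m_ne_zero i⟩

/-- the chosen surjection `(ℤ/q i)ˣ ↠ C_{m i}` -/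
noncomputable def ihqLoc (h : IhqData M q m) (i : ι) :
    (ZMod (q i))ˣ →* Multiplicative (ZMod (m i)) :=
  (ihq_exists_loc (q i) (m i) (h.prime i) (h.mdvd i)).choose

theorem ihqLoc_surjective (h : IhqData M q m) (i : ι) : Function.Surjective (ihqLoc h i) :=
  (ihq_exists_loc (q i) (m i) (h.prime i) (h.mdvd i)).choose_spec.1

theorem ihqLoc_eq_one_iff (h : IhqData M q m) (i : ι) (u : (ZMod (q i))ˣ) :
    ihqLoc h i u = 1 ↔ u ^ ((q i - 1) / m i) = 1 :=
  (ihq_exists_loc (q i) (m i) (h.prime i) (h.mdvd i)).choose_spec.2 u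

/-- **the character group map** `κ : (ℤ/M)ˣ → ∏_i C_{m i}` -/
noncomputable def ihqKappa (h : IhqData M q m) : (ZMod M)ˣ →* IhqDelta m where
  toFun d := ofAdd fun i => toAdd (ihqLoc h i (ZMod.unitsMap (h.dvd i) d))
  map_one' := by
    apply toAdd.injective
    funext i
    show toAdd (ihqLoc h i (ZMod.unitsMap (h.dvd i) 1)) = 0
    rw [map_one, map_one]
    rfl
  map_mul' d d' := by
    apply toAdd.injective
    funext i
    show toAdd (ihqLoc h i (ZMod.unitsMap (h.dvd i) (d * d')))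
      = toAdd (ihqLoc h i (ZMod.unitsMap (h.dvd i) d))
        + toAdd (ihqLoc h i (ZMod.unitsMap (h.dvd i) d'))
    rw [map_mul, map_mul]
    rfl

theorem ihqKappa_apply (h : IhqData M q m) (d : (ZMod M)ˣ) (i : ι) :
    toAdd (ihqKappa h d) i = toAdd (ihqLoc h i (ZMod.unitsMap (h.dvd i) d)) := rfl

/-- the kernel of `κ` does not depend on the choices -/
theorem ihq_mem_ker_iff (h : IhqData M q m) (d : (ZMod M)ˣ) :
    d ∈ (ihqKappa h).ker ↔
      ∀ i, (ZMod.unitsMap (h.dvd i) d) ^ ((q i - 1) / m i) = 1 := by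
  rw [MonoidHom.mem_ker]
  constructor
  · intro h1 i
    rw [← ihqLoc_eq_one_iff h i]
    have h2 := congrFun (congrArg toAdd h1) i
    rw [ihqKappa_apply] at h2
    exact toAdd.injective h2
  · intro h1
    apply toAdd.injective
    funext i
    rw [ihqKappa_apply, (ihqLoc_eq_one_iff h i _).mpr (h1 i)]
    rfl

/-! ### Sub-families -/

theorem IhqData.comp (h : IhqData M q m) {ι' : Type*} (f : ι' → ι) (hf : Function.Injective f) :
    IhqData M (q ∘ f) (m ∘ f) where
  prime i := h.prime (f i)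
  inj := h.inj.comp hf
  dvd i := h.dvd (f i)
  mdvd i := h.mdvd (f i)

/-- the kernel grows when the family shrinks -/
theorem ihq_ker_le_comp (h : IhqData M q m) {ι' : Type*} (f : ι' → ι)
    (hf : Function.Injective f) : (ihqKappa h).ker ≤ (ihqKappa (h.comp f hf)).ker := by
  intro d hd
  rw [ihq_mem_ker_iff] at hd ⊢
  intro i
  exact hd (f i)

/-! ### The CRT components -/

/-- an element which is `1` at all `q j`, `j ≠ i`, goes to the `i`-th factor -/
theorem ihqKappa_of_forall_ne [DecidableEq ι] (h : IhqData M q m) (i : ι) (d : (ZMod M)ˣ)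
    (hd : ∀ j, j ≠ i → ZMod.unitsMap (h.dvd j) d = 1) :
    ihqKappa h d = ofAdd (Pi.single i (toAdd (ihqLoc h i (ZMod.unitsMap (h.dvd i) d)))) := by
  apply toAdd.injective
  funext j
  rw [ihqKappa_apply]
  by_cases hj : j = i
  · subst hj
    rw [toAdd_ofAdd, Pi.single_eq_same]
  · rw [toAdd_ofAdd, Pi.single_eq_of_ne hj, hd j hj, map_one]
    rfl

theorem ihq_dvd_div (h : IhqData M q m) {i j : ι} (hj : j ≠ i) : q j ∣ M / q i := by
  have h1 : q j ∣ q i * (M / q i) := by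
    rw [Nat.mul_div_cancel' (h.dvd i)]
    exact h.dvd j
  have h2 : Nat.Coprime (q j) (q i) :=
    (Nat.coprime_primes (h.prime j) (h.prime i)).mpr fun e => hj (h.inj e)
  exact h2.dvd_of_dvd_mul_left h1

/-- an element which is `1` modulo `M / q i` goes to the `i`-th factor (this is the form of the
properties of helper8's `ihtIota`) -/
theorem ihqKappa_of_mod_div [DecidableEq ι] (h : IhqData M q m) (i : ι) (d : (ZMod M)ˣ)
    (hd : ZMod.unitsMap (Nat.div_dvd_of_dvd (h.dvd i)) d = 1) :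
    ihqKappa h d = ofAdd (Pi.single i (toAdd (ihqLoc h i (ZMod.unitsMap (h.dvd i) d)))) := by
  refine ihqKappa_of_forall_ne h i d fun j hj => ?_
  have h1 : ZMod.unitsMap (h.dvd j) d
      = ZMod.unitsMap (ihq_dvd_div h hj) (ZMod.unitsMap (Nat.div_dvd_of_dvd (h.dvd i)) d) := by
    rw [← MonoidHom.comp_apply, ZMod.unitsMap_comp]
  rw [h1, hd, map_one]

/-! ### Surjectivity -/

/-- the Chinese remainder theorem for the units at the primes `q i` -/
theorem ihq_exists_crt [Fintype ι] [NeZero M] (h : IhqData M q m) (u : ∀ i, (ZMod (q i))ˣ) :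
    ∃ d : (ZMod M)ˣ, ∀ i, ZMod.unitsMap (h.dvd i) d = u i := by
  classical
  have hcop : Pairwise (Function.onFun Nat.Coprime q) := fun i j hij =>
    (Nat.coprime_primes (h.prime i) (h.prime j)).mpr fun e => hij (h.inj e)
  have hprod : ∏ i, q i ∣ M :=
    Fintype.prod_dvd_of_isRelPrime (fun i j hij => Nat.coprime_iff_isRelPrime.mp (hcop hij)) h.dvd
  have hb : IsUnit ((ZMod.prodEquivPi q hcop).symm fun i => ((u i : (ZMod (q i))ˣ) : ZMod (q i))) := by
    have h1 : IsUnit (fun i => ((u i : (ZMod (q i))ˣ) : ZMod (q i))) :=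
      Pi.isUnit_iff.mpr fun i => (u i).isUnit
    exact h1.map (ZMod.prodEquivPi q hcop).symm
  obtain ⟨d, hd⟩ := ZMod.unitsMap_surjective hprod hb.unit
  refine ⟨d, fun i => ?_⟩
  have h1 : ZMod.unitsMap (h.dvd i) d
      = ZMod.unitsMap (Finset.dvd_prod_of_mem q (Finset.mem_univ i)) (ZMod.unitsMap hprod d) := by
    rw [← MonoidHom.comp_apply, ZMod.unitsMap_comp]
  rw [h1, hd]
  apply Units.ext
  rw [ZMod.unitsMap_val, IsUnit.unit_spec]
  have h2 := ZMod.prodEquivPi_apply q hcop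
    ((ZMod.prodEquivPi q hcop).symm fun i => ((u i : (ZMod (q i))ˣ) : ZMod (q i))) i
  rw [RingEquiv.apply_symm_apply] at h2
  rw [h2]
  rfl

/-- **`κ` is surjective** -/
theorem ihqKappa_surjective [Fintype ι] [NeZero M] (h : IhqData M q m) :
    Function.Surjective (ihqKappa h) := by
  intro x
  choose u hu using fun i => ihqLoc_surjective h i (ofAdd (toAdd x i))
  obtain ⟨d, hd⟩ := ihq_exists_crt h u
  refine ⟨d, ?_⟩
  apply toAdd.injective
  funext i
  rw [ihqKappa_apply, hd i, hu i]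
  rfl

/-- the `i`-th generator is the image of an element of the `q i`-component -/
theorem ihq_exists_gen [Fintype ι] [DecidableEq ι] [NeZero M] (h : IhqData M q m) (i : ι) :
    ∃ d : (ZMod M)ˣ, (∀ j, j ≠ i → ZMod.unitsMap (h.dvd j) d = 1) ∧ ihqKappa h d = ihqGen m i := by
  obtain ⟨u, hu⟩ := ihqLoc_surjective h i (ofAdd 1)
  obtain ⟨d, hd⟩ := ihq_exists_crt h (fun j => if e : j = i then e ▸ u else 1)
  have hdi : ZMod.unitsMap (h.dvd i) d = u := by rw [hd i, dif_pos rfl]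
  have hdj : ∀ j, j ≠ i → ZMod.unitsMap (h.dvd j) d = 1 := fun j hj => by rw [hd j, dif_neg hj]
  refine ⟨d, hdj, ?_⟩
  rw [ihqKappa_of_forall_ne h i d hdj, hdi, hu]
  rfl

/-- the quotient by the kernel -/
noncomputable def ihqQuotEquiv [Fintype ι] [NeZero M] (h : IhqData M q m) :
    (ZMod M)ˣ ⧸ (ihqKappa h).ker ≃* IhqDelta m :=
  QuotientGroup.quotientKerEquivOfSurjective (ihqKappa h) (ihqKappa_surjective h)

@[simp] theorem ihqQuotEquiv_mk [Fintype ι] [NeZero M] (h : IhqData M q m) (d : (ZMod M)ˣ) :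
    ihqQuotEquiv h (d : (ZMod M)ˣ ⧸ (ihqKappa h).ker) = ihqKappa h d := rfl

/-! ### Exponent -/

theorem ihq_pow_prod [Fintype ι] (x : IhqDelta m) : x ^ (∏ i, m i) = 1 := by
  apply toAdd.injective
  funext i
  rw [toAdd_pow, toAdd_one, Pi.smul_apply, Pi.zero_apply, nsmul_eq_mul]
  have h1 : ((∏ j, m j : ℕ) : ZMod (m i)) = 0 :=
    (ZMod.natCast_eq_zero_iff _ _).mpr (Finset.dvd_prod_of_mem m (Finset.mem_univ i))
  rw [h1, zero_mul]

theorem ihq_pow_mem_ker [Fintype ι] (h : IhqData M q m) (d : (ZMod M)ˣ) :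
    d ^ (∏ i, m i) ∈ (ihqKappa h).ker := by
  rw [MonoidHom.mem_ker, map_pow, ihq_pow_prod]

theorem ihq_odd_prod [Fintype ι] (hodd : ∀ i, Odd (m i)) : Odd (∏ i, m i) :=
  Finset.prod_induction m Odd (fun _ _ => Odd.mul) odd_one fun i _ => hodd i

/-- `-1` is in the kernel when all `m i` are odd -/
theorem ihq_neg_one_mem_ker [Fintype ι] (h : IhqData M q m) (hodd : ∀ i, Odd (m i)) :
    (-1 : (ZMod M)ˣ) ∈ (ihqKappa h).ker := by
  rw [MonoidHom.mem_ker]
  obtain ⟨k, hk⟩ := ihq_odd_prod hodd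
  have h1 : ihqKappa h (-1) ^ (∏ i, m i) = 1 := ihq_pow_prod _
  have h2 : ihqKappa h (-1) ^ 2 = 1 := by
    rw [← map_pow]
    simp
  rw [hk, pow_succ, pow_mul, h2, one_pow, one_mul] at h1
  exact h1

/-- square roots modulo the kernel when all `m i` are odd (the hypothesis `sqrt` of helper8's
`IhtHyp`) -/
theorem ihq_sqrt [Fintype ι] (h : IhqData M q m) (hodd : ∀ i, Odd (m i)) :
    ∃ k : ℕ, ∀ d : (ZMod M)ˣ, d * (d ^ (2 * k))⁻¹ ∈ (ihqKappa h).ker := by
  obtain ⟨k, hk⟩ := ihq_odd_prod hodd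
  refine ⟨k + 1, fun d => ?_⟩
  have h1 : d * (d ^ (2 * (k + 1)))⁻¹ = (d ^ (∏ i, m i))⁻¹ := by
    rw [hk, show 2 * (k + 1) = (2 * k + 1) + 1 by ring, pow_succ (d) (2 * k + 1), mul_inv_rev,
      ← mul_assoc, mul_inv_cancel, one_mul]
  rw [h1]
  exact inv_mem (ihq_pow_mem_ker h d)

/-- any common multiple of the `m i` is an exponent -/
theorem ihq_pow_eq_one_of_dvd (e : ℕ) (he : ∀ i, m i ∣ e) (x : IhqDelta m) : x ^ e = 1 := by
  apply toAdd.injective
  funext i
  rw [toAdd_pow, toAdd_one, Pi.smul_apply, Pi.zero_apply, nsmul_eq_mul]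
  have h1 : ((e : ℕ) : ZMod (m i)) = 0 := (ZMod.natCast_eq_zero_iff _ _).mpr (he i)
  rw [h1, zero_mul]

/-- square roots modulo the kernel, general form: `e` a common multiple of the `m i`,
`2 * k = e + 1` (so the same `k` works for every sub-family) -/
theorem ihq_sqrt_of_dvd (h : IhqData M q m) (e : ℕ) (he : ∀ i, m i ∣ e) (k : ℕ)
    (hk : 2 * k = e + 1) (d : (ZMod M)ˣ) : d * (d ^ (2 * k))⁻¹ ∈ (ihqKappa h).ker := by
  have h1 : d * (d ^ (2 * k))⁻¹ = (d ^ e)⁻¹ := by
    rw [hk, pow_succ, mul_inv_rev, ← mul_assoc, mul_inv_cancel, one_mul]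
  rw [h1]
  refine inv_mem ?_
  rw [MonoidHom.mem_ker, map_pow, ihq_pow_eq_one_of_dvd e he]

/-- **the generator `γ_i` is the image of a `k`-th power (`k` the square-root exponent) of the
`q i`-component**: for a section `ι` of the reduction mod `q i` which is `1` mod `M / q i`
(helper8's `ihtIota`, so `ι u ^ k` is helper7's `ihtcY`) -/
theorem ihq_exists_iota_pow_gen [DecidableEq ι] (h : IhqData M q m) (e : ℕ) (he : ∀ i, m i ∣ e)
    (k : ℕ) (hk : 2 * k = e + 1) (i : ι) (j : (ZMod (q i))ˣ →* (ZMod M)ˣ)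
    (h1 : ∀ u, ZMod.unitsMap (h.dvd i) (j u) = u)
    (h2 : ∀ u, ZMod.unitsMap (Nat.div_dvd_of_dvd (h.dvd i)) (j u) = 1) :
    ∃ u : (ZMod (q i))ˣ, ihqKappa h (j u ^ k) = ihqGen m i := by
  obtain ⟨u, hu⟩ := ihqLoc_surjective h i (ofAdd 2)
  refine ⟨u, ?_⟩
  rw [map_pow, ihqKappa_of_mod_div h i (j u) (h2 u), h1 u, hu]
  apply toAdd.injective
  rw [toAdd_pow, toAdd_ofAdd, toAdd_ofAdd, ihqGen_toAdd, ← Pi.single_smul]
  congr 1
  rw [nsmul_eq_mul]
  have h3 : ((e : ℕ) : ZMod (m i)) = 0 := (ZMod.natCast_eq_zero_iff _ _).mpr (he i)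
  have h4 : ((2 * k : ℕ) : ZMod (m i)) = 1 := by
    rw [hk]
    push_cast
    rw [h3, zero_add]
  rw [← h4]
  push_cast
  ring

/-! ### Removing one index -/

/-- the kernel of the family without `i` is the preimage of the `i`-th factor -/
theorem ihq_mem_ker_ne_iff [Fintype ι] [DecidableEq ι] (h : IhqData M q m) (i : ι)
    (d : (ZMod M)ˣ) :
    d ∈ (ihqKappa (h.comp (Subtype.val : {j // j ≠ i} → ι) Subtype.val_injective)).ker
      ↔ ihqKappa h d ∈ Subgroup.zpowers (ihqGen m i) := by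
  haveI := h.neZero
  rw [ihq_mem_ker_iff]
  constructor
  · intro h1
    have h2 : ihqKappa h d = ihqGen m i ^ (toAdd (ihqKappa h d) i).val := by
      apply toAdd.injective
      funext j
      rw [toAdd_pow, ihqGen_toAdd, Pi.smul_apply]
      by_cases hj : j = i
      · subst hj
        rw [Pi.single_eq_same, nsmul_eq_mul, mul_one, ZMod.natCast_zmod_val]
      · rw [Pi.single_eq_of_ne hj, smul_zero, ihqKappa_apply,
          (ihqLoc_eq_one_iff h j _).mpr (h1 ⟨j, hj⟩)]
        rfl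
    rw [h2]
    exact Subgroup.npow_mem_zpowers _ _
  · rintro ⟨k, hk⟩ ⟨j, hj⟩
    show (ZMod.unitsMap (h.dvd j) d) ^ ((q j - 1) / m j) = 1
    rw [← ihqLoc_eq_one_iff h j]
    apply toAdd.injective
    rw [← ihqKappa_apply, ← hk, toAdd_zpow, ihqGen_toAdd, Pi.smul_apply, Pi.single_eq_of_ne hj,
      smul_zero]
    rfl

/-- explicit form: on the kernel of the family without `i`, `κ d` is a power of `γ_i` -/
theorem ihq_kappa_eq_pow_of_mem_ker_ne [Fintype ι] [DecidableEq ι] (h : IhqData M q m) (i : ι)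
    (d : (ZMod M)ˣ)
    (hd : d ∈ (ihqKappa (h.comp (Subtype.val : {j // j ≠ i} → ι) Subtype.val_injective)).ker) :
    ihqKappa h d = ihqGen m i ^ (toAdd (ihqKappa h d) i).val := by
  haveI := h.neZero
  rw [ihq_mem_ker_iff] at hd
  apply toAdd.injective
  funext j
  rw [toAdd_pow, ihqGen_toAdd, Pi.smul_apply]
  by_cases hj : j = i
  · subst hj
    rw [Pi.single_eq_same, nsmul_eq_mul, mul_one, ZMod.natCast_zmod_val]
  · rw [Pi.single_eq_of_ne hj, smul_zero, ihqKappa_apply,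
      (ihqLoc_eq_one_iff h j _).mpr (hd ⟨j, hj⟩)]
    rfl

/-- the `q i`-component (elements `≡ 1 mod M / q i`) lies in the kernel of the family without `i` -/
theorem ihq_mem_ker_ne_of_mod_div (h : IhqData M q m) (i : ι) (d : (ZMod M)ˣ)
    (hd : ZMod.unitsMap (Nat.div_dvd_of_dvd (h.dvd i)) d = 1) :
    d ∈ (ihqKappa (h.comp (Subtype.val : {j // j ≠ i} → ι) Subtype.val_injective)).ker := by
  rw [ihq_mem_ker_iff]
  rintro ⟨j, hj⟩
  have h1 : ZMod.unitsMap (h.dvd j) d
      = ZMod.unitsMap (ihq_dvd_div h hj) (ZMod.unitsMap (Nat.div_dvd_of_dvd (h.dvd i)) d) := by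
    rw [← MonoidHom.comp_apply, ZMod.unitsMap_comp]
  show (ZMod.unitsMap (h.dvd j) d) ^ ((q j - 1) / m j) = 1
  rw [h1, hd, map_one, one_pow]

end

end Fermat.Agent.Ihara
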