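/-
IHARA track, package (A) [GRP] (helper9), part 4: **two families at once** (`Δ_Tc × Δ_Q`) and the
concrete data at level `M_n = N · ∏ qv i`.
-/
import Mathlib
import Fermat.Agent.Lib.Ihara.Grp.Kappa

set_option autoImplicit false
set_option linter.unusedSectionVars false
set_option linter.unusedVariables false
set_option linter.style.haveILetI false

namespace Fermat.Agent.Ihara

open Multiplicative

section Split

variable {α β : Type*} (a : α → ℕ) (c : β → ℕ)

/-- `Δ_{α ⊕ β} = Δ_α × Δ_β` -/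
def ihqSumEquiv : IhqDelta (Sum.elim a c) ≃* IhqDelta a × IhqDelta c where
  toFun x := (ofAdd fun i => (toAdd x (Sum.inl i) : ZMod (a i)),
    ofAdd fun j => (toAdd x (Sum.inr j) : ZMod (c j)))
  invFun y := ofAdd fun s => Sum.rec (motive := fun s => ZMod (Sum.elim a c s))
    (fun i => toAdd y.1 i) (fun j => toAdd y.2 j) s
  left_inv x := by
    apply toAdd.injective
    funext s
    cases s <;> rfl
  right_inv y := rfl
  map_mul' x y := rfl

theorem ihqSumEquiv_fst (x : IhqDelta (Sum.elim a c)) (i : α) :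
    toAdd (ihqSumEquiv a c x).1 i = toAdd x (Sum.inl i) := rfl

theorem ihqSumEquiv_snd (x : IhqDelta (Sum.elim a c)) (j : β) :
    toAdd (ihqSumEquiv a c x).2 j = toAdd x (Sum.inr j) := rfl

variable [DecidableEq α] [DecidableEq β]

theorem ihqSumEquiv_gen_inl (i : α) :
    ihqSumEquiv a c (ihqGen (Sum.elim a c) (Sum.inl i)) = (ihqGen a i, 1) := by
  refine Prod.ext ?_ ?_
  · apply toAdd.injective
    funext i'
    by_cases h : i' = i
    · subst h
      exact (ihqGen_apply_same (Sum.elim a c) (Sum.inl i')).trans (ihqGen_apply_same a i').symm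
    · exact (ihqGen_apply_ne (Sum.elim a c) (fun e => h (Sum.inl_injective e))).trans
        (ihqGen_apply_ne a h).symm
  · apply toAdd.injective
    funext j
    exact ihqGen_apply_ne (Sum.elim a c) (i := Sum.inl i) (j := Sum.inr j) Sum.inr_ne_inl

theorem ihqSumEquiv_gen_inr (j : β) :
    ihqSumEquiv a c (ihqGen (Sum.elim a c) (Sum.inr j)) = (1, ihqGen c j) := by
  refine Prod.ext ?_ ?_
  · apply toAdd.injective
    funext i
    exact ihqGen_apply_ne (Sum.elim a c) (i := Sum.inr j) (j := Sum.inl i) Sum.inl_ne_inr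
  · apply toAdd.injective
    funext j'
    by_cases h : j' = j
    · subst h
      exact (ihqGen_apply_same (Sum.elim a c) (Sum.inr j')).trans (ihqGen_apply_same c j').symm
    · exact (ihqGen_apply_ne (Sum.elim a c) (fun e => h (Sum.inr_injective e))).trans
        (ihqGen_apply_ne c h).symm

end Split

section Concrete

variable {p N r : ℕ} (Tc : Finset Nat.Primes) (qv : Fin r → ℕ)

/-- the primes of `Tc ⊕ Q` -/
def ihqPrimes : ↥Tc ⊕ Fin r → ℕ := Sum.elim (fun v : ↥Tc => ((v : Nat.Primes) : ℕ)) qv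

/-- the orders: the full `p`-parts of `q - 1` -/
noncomputable def ihqOrders (p : ℕ) : ↥Tc ⊕ Fin r → ℕ :=
  Sum.elim (fun v : ↥Tc => p ^ padicValNat p (((v : Nat.Primes) : ℕ) - 1))
    (fun i => p ^ padicValNat p (qv i - 1))

theorem ihqOrders_eq (j : ↥Tc ⊕ Fin r) :
    ihqOrders Tc qv p j = p ^ padicValNat p (ihqPrimes Tc qv j - 1) := by
  cases j <;> rfl

/-- **the data at level `M_n = N · ∏ qv i`** -/
theorem ihq_data_sum (hTcN : ∀ v : ↥Tc, ((v : Nat.Primes) : ℕ) ∣ N)
    (hqinj : Function.Injective qv) (hqprime : ∀ i, (qv i).Prime) (hqN : ∀ i, ¬ qv i ∣ N) :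
    IhqData (N * ∏ i, qv i) (ihqPrimes Tc qv) (ihqOrders Tc qv p) where
  prime j := by
    cases j with
    | inl v => exact (v : Nat.Primes).2
    | inr i => exact hqprime i
  inj := by
    intro j j' hjj
    cases j with
    | inl v =>
      cases j' with
      | inl v' =>
        have : (v : Nat.Primes) = (v' : Nat.Primes) := Subtype.ext hjj
        rw [Subtype.ext this]
      | inr i' =>
        exfalso
        have h1 : ((v : Nat.Primes) : ℕ) = qv i' := hjj
        exact hqN i' (h1 ▸ hTcN v)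
    | inr i =>
      cases j' with
      | inl v' =>
        exfalso
        have h1 : qv i = ((v' : Nat.Primes) : ℕ) := hjj
        exact hqN i (h1 ▸ hTcN v')
      | inr i' =>
        have : qv i = qv i' := hjj
        rw [hqinj this]
  dvd j := by
    cases j with
    | inl v => exact (hTcN v).trans (Dvd.intro _ rfl)
    | inr i => exact (Finset.dvd_prod_of_mem qv (Finset.mem_univ i)).trans (Dvd.intro_left _ rfl)
  mdvd j := by
    rw [ihqOrders_eq]
    exact pow_padicValNat_dvd

/-- `M_n` is squarefree -/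
theorem ihq_squarefree_level (hN : Squarefree N) (hqinj : Function.Injective qv)
    (hqprime : ∀ i, (qv i).Prime) (hqN : ∀ i, ¬ qv i ∣ N) : Squarefree (N * ∏ i, qv i) := by
  have hcop : ∀ i, Nat.Coprime N (qv i) := fun i =>
    (Nat.Coprime.symm ((hqprime i).coprime_iff_not_dvd.mpr (hqN i)))
  rw [Nat.squarefree_mul_iff]
  refine ⟨Nat.Coprime.prod_right fun i _ => hcop i, hN, ?_⟩
  have h1 : ∏ i, qv i = ∏ x ∈ Finset.univ.image qv, x := by
    rw [Finset.prod_image fun i _ j _ h => hqinj h]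
  rw [h1]
  refine Finset.squarefree_prod_of_pairwise_isCoprime ?_ ?_
  · intro x hx y hy hxy
    obtain ⟨i, -, rfl⟩ := Finset.mem_image.mp hx
    obtain ⟨j, -, rfl⟩ := Finset.mem_image.mp hy
    exact Nat.coprime_iff_isRelPrime.mp ((Nat.coprime_primes (hqprime i) (hqprime j)).mpr hxy)
  · intro x hx
    obtain ⟨i, -, rfl⟩ := Finset.mem_image.mp hx
    exact (hqprime i).squarefree

/-- `n + 1 ≤ c i` when `p ^ (n + 1) ∣ qv i - 1` -/
theorem ihq_le_padicValNat {p : ℕ} (hp : p.Prime) {q n : ℕ} (hq : q.Prime)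
    (h : p ^ (n + 1) ∣ q - 1) : n + 1 ≤ padicValNat p (q - 1) := by
  haveI := Fact.mk hp
  have hq1 : q - 1 ≠ 0 := by have := hq.two_le; omega
  exact (padicValNat_dvd_iff_le hq1).mp h

end Concrete

section Quot

variable {p M r : ℕ} [NeZero M] {Tc : Finset Nat.Primes} {qv : Fin r → ℕ}

/-- the quotient `(ℤ/M)ˣ / H = Δ_Tc × Δ_Q` (apply with `h := ihq_data_sum …`, `M = N · ∏ qv i`) -/
noncomputable def ihqQuotEquivSum (h : IhqData M (ihqPrimes Tc qv) (ihqOrders Tc qv p)) :
    (ZMod M)ˣ ⧸ (ihqKappa h).ker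
      ≃* IhqDelta (fun v : ↥Tc => p ^ padicValNat p (((v : Nat.Primes) : ℕ) - 1))
        × IhqDelta (fun i : Fin r => p ^ padicValNat p (qv i - 1)) :=
  (ihqQuotEquiv h).trans (ihqSumEquiv _ _)

theorem ihqQuotEquivSum_mk_fst (h : IhqData M (ihqPrimes Tc qv) (ihqOrders Tc qv p))
    (d : (ZMod M)ˣ) (v : ↥Tc) :
    toAdd (ihqQuotEquivSum h (d : (ZMod M)ˣ ⧸ (ihqKappa h).ker)).1 v
      = toAdd (ihqKappa h d) (Sum.inl v) := rfl

theorem ihqQuotEquivSum_mk_snd (h : IhqData M (ihqPrimes Tc qv) (ihqOrders Tc qv p))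
    (d : (ZMod M)ˣ) (i : Fin r) :
    toAdd (ihqQuotEquivSum h (d : (ZMod M)ˣ ⧸ (ihqKappa h).ker)).2 i
      = toAdd (ihqKappa h d) (Sum.inr i) := rfl

theorem ihq_neZero_level {N : ℕ} [NeZero N] (hqprime : ∀ i, (qv i).Prime) :
    NeZero (N * ∏ i, qv i) :=
  ⟨Nat.mul_ne_zero (NeZero.ne N) (Finset.prod_ne_zero_iff.mpr fun i _ => (hqprime i).ne_zero)⟩

end Quot



end Fermat.Agent.Ihara
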