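/-
IHARA track, package (A) [GRP] (helper9), part 5: **the two complementary subgroups** `Δ₁ ≅ Δ_Tc`,
`Δ₂ ≅ Δ_Q` of a group `G ≃* A × C` (consumer form of helper1's (B) [LVL]: `IsCompl Δ₁ Δ₂`,
`Δ₂ ≃* Δ_Q`, characters of `Δ₁`).
-/
import Mathlib
import Fermat.Agent.Lib.Ihara.Grp.Sum

set_option autoImplicit false
set_option linter.unusedSectionVars false
set_option linter.unusedVariables false
set_option linter.style.haveILetI false

namespace Fermat.Agent.Ihara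

open Multiplicative

section Abstract

variable {G A C : Type*} [Group G] [Group A] [Group C] (E : G ≃* A × C)

/-- the subgroup of `G ≃* A × C` corresponding to `A × 1` -/
def ihqFst : Subgroup G := ((MonoidHom.snd A C).comp E.toMonoidHom).ker

/-- the subgroup of `G ≃* A × C` corresponding to `1 × C` -/
def ihqSnd : Subgroup G := ((MonoidHom.fst A C).comp E.toMonoidHom).ker

variable {E}

theorem ihq_mem_fst_iff {g : G} : g ∈ ihqFst E ↔ (E g).2 = 1 := MonoidHom.mem_ker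

theorem ihq_mem_snd_iff {g : G} : g ∈ ihqSnd E ↔ (E g).1 = 1 := MonoidHom.mem_ker

variable (E)

theorem ihq_symm_mem_fst (a : A) : E.symm (a, 1) ∈ ihqFst E := by
  rw [ihq_mem_fst_iff, MulEquiv.apply_symm_apply]

theorem ihq_symm_mem_snd (c : C) : E.symm (1, c) ∈ ihqSnd E := by
  rw [ihq_mem_snd_iff, MulEquiv.apply_symm_apply]

/-- **the two subgroups are complementary** -/
theorem ihq_isCompl : IsCompl (ihqFst E) (ihqSnd E) := by
  constructor
  · rw [Subgroup.disjoint_def]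
    intro g h1 h2
    rw [ihq_mem_fst_iff] at h1
    rw [ihq_mem_snd_iff] at h2
    apply E.injective
    rw [map_one]
    exact Prod.ext h2 h1
  · rw [codisjoint_iff, eq_top_iff]
    intro g _
    have h1 : g = E.symm ((E g).1, 1) * E.symm (1, (E g).2) := by
      apply E.injective
      rw [map_mul, MulEquiv.apply_symm_apply, MulEquiv.apply_symm_apply, Prod.mk_mul_mk, mul_one,
        one_mul]
    rw [h1]
    exact Subgroup.mul_mem_sup (ihq_symm_mem_fst E _) (ihq_symm_mem_snd E _)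

/-- `Δ₁ ≃* A` -/
def ihqFstEquiv : ↥(ihqFst E) ≃* A where
  toFun g := (E g).1
  invFun a := ⟨E.symm (a, 1), ihq_symm_mem_fst E a⟩
  left_inv g := by
    apply Subtype.ext
    apply E.injective
    show E (E.symm ((E g).1, 1)) = E g
    rw [MulEquiv.apply_symm_apply]
    exact Prod.ext rfl (ihq_mem_fst_iff.mp g.2).symm
  right_inv a := by
    show (E (E.symm (a, 1))).1 = a
    rw [MulEquiv.apply_symm_apply]
  map_mul' g g' := by
    show (E ((g : G) * (g' : G))).1 = (E g).1 * (E g').1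
    rw [map_mul]
    rfl

/-- `Δ₂ ≃* C` -/
def ihqSndEquiv : ↥(ihqSnd E) ≃* C where
  toFun g := (E g).2
  invFun c := ⟨E.symm (1, c), ihq_symm_mem_snd E c⟩
  left_inv g := by
    apply Subtype.ext
    apply E.injective
    show E (E.symm (1, (E g).2)) = E g
    rw [MulEquiv.apply_symm_apply]
    exact Prod.ext (ihq_mem_snd_iff.mp g.2).symm rfl
  right_inv c := by
    show (E (E.symm (1, c))).2 = c
    rw [MulEquiv.apply_symm_apply]
  map_mul' g g' := by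
    show (E ((g : G) * (g' : G))).2 = (E g).2 * (E g').2
    rw [map_mul]
    rfl

theorem ihqFstEquiv_apply (g : ↥(ihqFst E)) : ihqFstEquiv E g = (E g).1 := rfl

theorem ihqSndEquiv_apply (g : ↥(ihqSnd E)) : ihqSndEquiv E g = (E g).2 := rfl

theorem ihqFstEquiv_symm_coe (a : A) : (((ihqFstEquiv E).symm a : ↥(ihqFst E)) : G) = E.symm (a, 1) :=
  rfl

theorem ihqSndEquiv_symm_coe (c : C) : (((ihqSndEquiv E).symm c : ↥(ihqSnd E)) : G) = E.symm (1, c) :=
  rfl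

end Abstract

section Concrete

variable {p M r : ℕ} [NeZero M] {Tc : Finset Nat.Primes} {qv : Fin r → ℕ}
  (h : IhqData M (ihqPrimes Tc qv) (ihqOrders Tc qv p))

/-- `Δ₁ ≤ (ℤ/M)ˣ / H`: the image of the `Tc`-components (`≅ Δ_Tc`) -/
noncomputable def ihqD1 : Subgroup ((ZMod M)ˣ ⧸ (ihqKappa h).ker) := ihqFst (ihqQuotEquivSum h)

/-- `Δ₂ ≤ (ℤ/M)ˣ / H`: the image of the `Q`-components (`≅ Δ_Q`) -/
noncomputable def ihqD2 : Subgroup ((ZMod M)ˣ ⧸ (ihqKappa h).ker) := ihqSnd (ihqQuotEquivSum h)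

/-- **`Δ₁` and `Δ₂` are complementary** -/
theorem ihqD_isCompl : IsCompl (ihqD1 h) (ihqD2 h) := ihq_isCompl _

/-- `Δ₁ ≃* Δ_Tc` -/
noncomputable def ihqD1Equiv : ↥(ihqD1 h) ≃*
    IhqDelta (fun v : ↥Tc => p ^ padicValNat p (((v : Nat.Primes) : ℕ) - 1)) :=
  ihqFstEquiv (ihqQuotEquivSum h)

/-- `Δ₂ ≃* Δ_Q` -/
noncomputable def ihqD2Equiv : ↥(ihqD2 h) ≃*
    IhqDelta (fun i : Fin r => p ^ padicValNat p (qv i - 1)) :=
  ihqSndEquiv (ihqQuotEquivSum h)

theorem ihq_mk_mem_D1_iff (d : (ZMod M)ˣ) :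
    (d : (ZMod M)ˣ ⧸ (ihqKappa h).ker) ∈ ihqD1 h
      ↔ ∀ i : Fin r, toAdd (ihqKappa h d) (Sum.inr i) = 0 := by
  rw [ihqD1, ihq_mem_fst_iff]
  constructor
  · intro h1 i
    rw [← ihqQuotEquivSum_mk_snd, h1]
    rfl
  · intro h1
    apply toAdd.injective
    funext i
    rw [ihqQuotEquivSum_mk_snd, h1 i]
    rfl

theorem ihq_mk_mem_D2_iff (d : (ZMod M)ˣ) :
    (d : (ZMod M)ˣ ⧸ (ihqKappa h).ker) ∈ ihqD2 h
      ↔ ∀ v : ↥Tc, toAdd (ihqKappa h d) (Sum.inl v) = 0 := by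
  rw [ihqD2, ihq_mem_snd_iff]
  constructor
  · intro h1 v
    rw [← ihqQuotEquivSum_mk_fst, h1]
    rfl
  · intro h1
    apply toAdd.injective
    funext v
    rw [ihqQuotEquivSum_mk_fst, h1 v]
    rfl

/-- an element with `κ d = γ_{q_i}` represents the generator `γ_i` of `Δ₂ ≅ Δ_Q` -/
theorem ihqD2Equiv_symm_gen (i : Fin r) (d : (ZMod M)ˣ)
    (hd : ihqKappa h d = ihqGen (ihqOrders Tc qv p) (Sum.inr i)) :
    (((ihqD2Equiv h).symm (ihqGen _ i) : ↥(ihqD2 h)) : (ZMod M)ˣ ⧸ (ihqKappa h).ker) = d := by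
  have h1 : ihqQuotEquivSum h (d : (ZMod M)ˣ ⧸ (ihqKappa h).ker) = (1, ihqGen _ i) := by
    show ihqSumEquiv _ _ (ihqKappa h d) = _
    rw [hd]
    exact ihqSumEquiv_gen_inr _ _ i
  exact (ihqSndEquiv_symm_coe (ihqQuotEquivSum h) (ihqGen _ i)).trans
    ((MulEquiv.symm_apply_eq _).mpr h1.symm)

/-- an element with `κ d = γ_v` represents the generator `γ_v` of `Δ₁ ≅ Δ_Tc` -/
theorem ihqD1Equiv_symm_gen (v : ↥Tc) (d : (ZMod M)ˣ)
    (hd : ihqKappa h d = ihqGen (ihqOrders Tc qv p) (Sum.inl v)) :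
    (((ihqD1Equiv h).symm (ihqGen _ v) : ↥(ihqD1 h)) : (ZMod M)ˣ ⧸ (ihqKappa h).ker) = d := by
  have h1 : ihqQuotEquivSum h (d : (ZMod M)ˣ ⧸ (ihqKappa h).ker) = (ihqGen _ v, 1) := by
    show ihqSumEquiv _ _ (ihqKappa h d) = _
    rw [hd]
    exact ihqSumEquiv_gen_inl _ _ v
  exact (ihqFstEquiv_symm_coe (ihqQuotEquivSum h) (ihqGen _ v)).trans
    ((MulEquiv.symm_apply_eq _).mpr h1.symm)

/-- **characters of `Δ₁`**: prescribed values on the generators `γ_v`, `v ∈ Tc` -/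
theorem ihq_exists_chi {Y : Type*} [CommMonoid Y] (y : ↥Tc → Y)
    (hy : ∀ v : ↥Tc, y v ^ (p ^ padicValNat p (((v : Nat.Primes) : ℕ) - 1)) = 1) :
    ∃ χ : ↥(ihqD1 h) →* Y, ∀ v, χ ((ihqD1Equiv h).symm (ihqGen _ v)) = y v := by
  haveI : ∀ v : ↥Tc, NeZero (p ^ padicValNat p (((v : Nat.Primes) : ℕ) - 1)) := fun v =>
    (h.neZero (Sum.inl v))
  obtain ⟨f, hf⟩ := ihq_univ (fun v : ↥Tc => p ^ padicValNat p (((v : Nat.Primes) : ℕ) - 1)) y hy
  refine ⟨f.comp (ihqD1Equiv h).toMonoidHom, fun v => ?_⟩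
  show f ((ihqD1Equiv h) ((ihqD1Equiv h).symm (ihqGen _ v))) = y v
  rw [MulEquiv.apply_symm_apply, hf]

end Concrete

end Fermat.Agent.Ihara
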