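/-
IHARA track, package (A) [GRP] (helper9), part 7: **extension of characters of `Δ₁`, the generators
`γ_v`, `γ_i` inside `(ℤ/M)ˣ / H`, the subgroups `Δ₁′ = Δ₁ ⊔ ⟨γ_i⟩`, and the bigger level structures
`H′ ⊇ H`** (whole `q₀`-component resp. whole `q_i`-component inside): instantiation lemmas for (H) [SC]
and (I) [E′].
-/
import Mathlib
import Fermat.Agent.Lib.Ihara.Grp.Compl

set_option autoImplicit false
set_option linter.unusedSectionVars false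
set_option linter.unusedVariables false
set_option linter.style.haveILetI false

namespace Fermat.Agent.Ihara

open Multiplicative

section Abstract

variable {G A C : Type*} [Group G] [Group A] [Group C] (E : G ≃* A × C) {Y : Type*} [Monoid Y]

/-- the extension of a character of `Δ₁ = A × 1` to `G ≃* A × C`, trivial on `Δ₂ = 1 × C` -/
def ihqExt (χ : ↥(ihqFst E) →* Y) : G →* Y :=
  χ.comp ((ihqFstEquiv E).symm.toMonoidHom.comp ((MonoidHom.fst A C).comp E.toMonoidHom))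

theorem ihqExt_apply (χ : ↥(ihqFst E) →* Y) (g : G) :
    ihqExt E χ g = χ ((ihqFstEquiv E).symm (E g).1) := rfl

theorem ihqExt_of_mem_fst (χ : ↥(ihqFst E) →* Y) {g : G} (hg : g ∈ ihqFst E) :
    ihqExt E χ g = χ ⟨g, hg⟩ := by
  rw [ihqExt_apply]
  congr 1
  exact (ihqFstEquiv E).symm_apply_apply ⟨g, hg⟩

theorem ihqExt_of_mem_snd (χ : ↥(ihqFst E) →* Y) {g : G} (hg : g ∈ ihqSnd E) :
    ihqExt E χ g = 1 := by
  rw [ihqExt_apply, ihq_mem_snd_iff.mp hg, map_one, map_one]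

end Abstract

section Concrete

variable {p M r : ℕ} [NeZero M] {Tc : Finset Nat.Primes} {qv : Fin r → ℕ}
  (h : IhqData M (ihqPrimes Tc qv) (ihqOrders Tc qv p))

/-- the generator `γ_v` of the `v`-factor of `Δ₁`, as an element of `(ℤ/M)ˣ / H` -/
noncomputable def ihqG1 (v : ↥Tc) : (ZMod M)ˣ ⧸ (ihqKappa h).ker :=
  (((ihqD1Equiv h).symm (ihqGen _ v) : ↥(ihqD1 h)) : (ZMod M)ˣ ⧸ (ihqKappa h).ker)

/-- the generator `γ_i` of the `q_i`-factor of `Δ₂`, as an element of `(ℤ/M)ˣ / H` -/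
noncomputable def ihqG2 (i : Fin r) : (ZMod M)ˣ ⧸ (ihqKappa h).ker :=
  (((ihqD2Equiv h).symm (ihqGen _ i) : ↥(ihqD2 h)) : (ZMod M)ˣ ⧸ (ihqKappa h).ker)

theorem ihqG1_mem (v : ↥Tc) : ihqG1 h v ∈ ihqD1 h := Subtype.property _

theorem ihqG2_mem (i : Fin r) : ihqG2 h i ∈ ihqD2 h := Subtype.property _

theorem ihqQuotEquivSum_G1 (v : ↥Tc) : ihqQuotEquivSum h (ihqG1 h v) = (ihqGen _ v, 1) := by
  show ihqQuotEquivSum h ((ihqQuotEquivSum h).symm (ihqGen _ v, 1)) = _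
  rw [MulEquiv.apply_symm_apply]

theorem ihqQuotEquivSum_G2 (i : Fin r) : ihqQuotEquivSum h (ihqG2 h i) = (1, ihqGen _ i) := by
  show ihqQuotEquivSum h ((ihqQuotEquivSum h).symm (1, ihqGen _ i)) = _
  rw [MulEquiv.apply_symm_apply]

theorem ihqQuotEquivSum_mk (d : (ZMod M)ˣ) :
    ihqQuotEquivSum h (d : (ZMod M)ˣ ⧸ (ihqKappa h).ker) = ihqSumEquiv _ _ (ihqKappa h d) := rfl

/-- **(I) [E′]: `H′ ⊇ H` with the whole `v`-component (`v ∈ Tc`)**: the elements of `H′` are powers of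
`γ_v` modulo `H` -/
theorem ihq_mk_eq_pow_G1 (v : ↥Tc) (d : (ZMod M)ˣ)
    (hd : d ∈ (ihqKappa (h.comp (Subtype.val : {j // j ≠ (Sum.inl v : ↥Tc ⊕ Fin r)} → _)
      Subtype.val_injective)).ker) :
    ∃ k : ℕ, (d : (ZMod M)ˣ ⧸ (ihqKappa h).ker) = ihqG1 h v ^ k := by
  classical
  have h1 := ihq_kappa_eq_pow_of_mem_ker_ne h (Sum.inl v) d hd
  generalize (toAdd (ihqKappa h d) (Sum.inl v)).val = k at h1
  refine ⟨k, ?_⟩
  apply (ihqQuotEquivSum h).injective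
  rw [map_pow, ihqQuotEquivSum_G1, ihqQuotEquivSum_mk, h1]
  exact (map_pow (ihqSumEquiv _ _) (ihqGen (ihqOrders Tc qv p) (Sum.inl v)) k).trans
    (congrArg (· ^ k) (ihqSumEquiv_gen_inl _ _ v))

/-- **(H) [SC]: `H′ ⊇ H` with the whole `q_i`-component**: the elements of `H′` are powers of `γ_i`
modulo `H` -/
theorem ihq_mk_eq_pow_G2 (i : Fin r) (d : (ZMod M)ˣ)
    (hd : d ∈ (ihqKappa (h.comp (Subtype.val : {j // j ≠ (Sum.inr i : ↥Tc ⊕ Fin r)} → _)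
      Subtype.val_injective)).ker) :
    ∃ k : ℕ, (d : (ZMod M)ˣ ⧸ (ihqKappa h).ker) = ihqG2 h i ^ k := by
  classical
  have h1 := ihq_kappa_eq_pow_of_mem_ker_ne h (Sum.inr i) d hd
  generalize (toAdd (ihqKappa h d) (Sum.inr i)).val = k at h1
  refine ⟨k, ?_⟩
  apply (ihqQuotEquivSum h).injective
  rw [map_pow, ihqQuotEquivSum_G2, ihqQuotEquivSum_mk, h1]
  exact (map_pow (ihqSumEquiv _ _) (ihqGen (ihqOrders Tc qv p) (Sum.inr i)) k).trans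
    (congrArg (· ^ k) (ihqSumEquiv_gen_inr _ _ i))

/-- a character `Ψ` of `(ℤ/M)ˣ` which on `Δ₁` is given by `χ″` with `χ″ γ_v = 1` is trivial on
`H′ ⊇` the whole `v`-component -/
theorem ihq_char_trivial_inl {𝒪 R : Type*} [Monoid 𝒪] [Monoid R] (f : 𝒪 →* R)
    (χ'' : ↥(ihqD1 h) →* 𝒪) (v : ↥Tc) (hχ : χ'' ((ihqD1Equiv h).symm (ihqGen _ v)) = 1)
    (Ψ : (ZMod M)ˣ →* R)
    (hΨ : ∀ (d : (ZMod M)ˣ) (hd : (d : (ZMod M)ˣ ⧸ (ihqKappa h).ker) ∈ ihqD1 h),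
      Ψ d = f (χ'' ⟨_, hd⟩))
    (d : (ZMod M)ˣ)
    (hd : d ∈ (ihqKappa (h.comp (Subtype.val : {j // j ≠ (Sum.inl v : ↥Tc ⊕ Fin r)} → _)
      Subtype.val_injective)).ker) : Ψ d = 1 := by
  obtain ⟨k, hk⟩ := ihq_mk_eq_pow_G1 h v d hd
  have hmem : (d : (ZMod M)ˣ ⧸ (ihqKappa h).ker) ∈ ihqD1 h := by
    rw [hk]
    exact Subgroup.pow_mem _ (ihqG1_mem h v) k
  have h1 : (⟨_, hmem⟩ : ↥(ihqD1 h)) = ((ihqD1Equiv h).symm (ihqGen _ v)) ^ k :=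
    Subtype.ext (by rw [Subgroup.coe_pow]; exact hk)
  rw [hΨ d hmem, h1, map_pow, hχ, one_pow, map_one]

/-- `Δ₁′ = Δ₁ ⊔ ⟨γ_i⟩` -/
noncomputable def ihqD1' (i : Fin r) : Subgroup ((ZMod M)ˣ ⧸ (ihqKappa h).ker) :=
  ihqD1 h ⊔ Subgroup.zpowers (ihqG2 h i)

theorem ihqD1_le_D1' (i : Fin r) : ihqD1 h ≤ ihqD1' h i := le_sup_left

theorem ihqG2_mem_D1' (i : Fin r) : ihqG2 h i ∈ ihqD1' h i :=
  (le_sup_right : Subgroup.zpowers (ihqG2 h i) ≤ ihqD1' h i) (Subgroup.mem_zpowers _)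

theorem ihqD1'_sup (i : Fin r) : ihqD1' h i ⊔ ihqD2 h = ⊤ :=
  top_unique ((ihqD_isCompl h).sup_eq_top.symm.le.trans (sup_le_sup_right (ihqD1_le_D1' h i) _))

/-- the extension `χ′` of a character `χ` of `Δ₁` to `Δ₁′ = Δ₁ ⊔ ⟨γ_i⟩`, trivial on `γ_i` -/
noncomputable def ihqChi' {Y : Type*} [Monoid Y] (i : Fin r) (χ : ↥(ihqD1 h) →* Y) :
    ↥(ihqD1' h i) →* Y :=
  (ihqExt (ihqQuotEquivSum h) χ).comp (ihqD1' h i).subtype

theorem ihqChi'_of_mem {Y : Type*} [Monoid Y] (i : Fin r) (χ : ↥(ihqD1 h) →* Y)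
    (g : (ZMod M)ˣ ⧸ (ihqKappa h).ker) (hg : g ∈ ihqD1 h) :
    ihqChi' h i χ ⟨g, ihqD1_le_D1' h i hg⟩ = χ ⟨g, hg⟩ :=
  ihqExt_of_mem_fst (ihqQuotEquivSum h) χ hg

theorem ihqChi'_of_mem_D2 {Y : Type*} [Monoid Y] (i : Fin r) (χ : ↥(ihqD1 h) →* Y)
    (g : ↥(ihqD1' h i)) (hg : (g : (ZMod M)ˣ ⧸ (ihqKappa h).ker) ∈ ihqD2 h) :
    ihqChi' h i χ g = 1 :=
  ihqExt_of_mem_snd (ihqQuotEquivSum h) χ hg

theorem ihqChi'_G2 {Y : Type*} [Monoid Y] (i : Fin r) (χ : ↥(ihqD1 h) →* Y) :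
    ihqChi' h i χ ⟨ihqG2 h i, ihqG2_mem_D1' h i⟩ = 1 :=
  ihqChi'_of_mem_D2 h i χ _ (ihqG2_mem h i)

/-- a character `Ψ` of `(ℤ/M)ˣ` which on `Δ₁′` is given by `χ′ = ihqChi' h i χ` is trivial on
`H′ ⊇` the whole `q_i`-component -/
theorem ihq_char_trivial_inr {𝒪 R : Type*} [Monoid 𝒪] [Monoid R] (f : 𝒪 →* R)
    (χ : ↥(ihqD1 h) →* 𝒪) (i : Fin r) (Ψ : (ZMod M)ˣ →* R)
    (hΨ : ∀ (d : (ZMod M)ˣ) (hd : (d : (ZMod M)ˣ ⧸ (ihqKappa h).ker) ∈ ihqD1' h i),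
      Ψ d = f (ihqChi' h i χ ⟨_, hd⟩))
    (d : (ZMod M)ˣ)
    (hd : d ∈ (ihqKappa (h.comp (Subtype.val : {j // j ≠ (Sum.inr i : ↥Tc ⊕ Fin r)} → _)
      Subtype.val_injective)).ker) : Ψ d = 1 := by
  obtain ⟨k, hk⟩ := ihq_mk_eq_pow_G2 h i d hd
  have hmem2 : (d : (ZMod M)ˣ ⧸ (ihqKappa h).ker) ∈ ihqD2 h := by
    rw [hk]
    exact Subgroup.pow_mem _ (ihqG2_mem h i) k
  have hmem : (d : (ZMod M)ˣ ⧸ (ihqKappa h).ker) ∈ ihqD1' h i := by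
    rw [hk]
    exact Subgroup.pow_mem _ (ihqG2_mem_D1' h i) k
  rw [hΨ d hmem, ihqChi'_of_mem_D2 h i χ ⟨_, hmem⟩ hmem2, map_one]

/-- `Δ₁` is a `p`-group -/
theorem ihqD1_pow (g : ↥(ihqD1 h)) :
    g ^ (p ^ ∑ v : ↥Tc, padicValNat p (((v : Nat.Primes) : ℕ) - 1)) = 1 := by
  apply (ihqD1Equiv h).injective
  rw [map_pow, map_one, ← Finset.prod_pow_eq_pow_sum]
  exact ihq_pow_prod _

/-- `Δ₂` is a `p`-group -/
theorem ihqD2_pow (g : ↥(ihqD2 h)) :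
    g ^ (p ^ ∑ i : Fin r, padicValNat p (qv i - 1)) = 1 := by
  apply (ihqD2Equiv h).injective
  rw [map_pow, map_one, ← Finset.prod_pow_eq_pow_sum]
  exact ihq_pow_prod _

end Concrete

section Cong

open IsLocalRing

/-- an element of `p`-power order of a local ring of residue characteristic `p` is `≡ 1` -/
theorem ihq_sub_one_mem_of_pow {𝒪 : Type*} [CommRing 𝒪] [IsLocalRing 𝒪] {p : ℕ} (hp : p.Prime)
    (hp𝒪 : (p : 𝒪) ∈ maximalIdeal 𝒪) (x : 𝒪) (n : ℕ) (hx : x ^ (p ^ n) = 1) :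
    x - 1 ∈ maximalIdeal 𝒪 := by
  haveI : Fact p.Prime := ⟨hp⟩
  haveI : CharP (ResidueField 𝒪) p := by
    refine (CharP.charP_iff_prime_eq_zero hp).2 ?_
    rw [← map_natCast (residue 𝒪)]
    exact (residue_eq_zero_iff _).2 hp𝒪
  rw [← residue_eq_zero_iff, map_sub, map_one]
  have h1 : (residue 𝒪 x - 1) ^ (p ^ n) = 0 := by
    rw [sub_pow_char_pow, one_pow, ← map_pow, hx, map_one, sub_self]
  exact pow_eq_zero_iff (pow_ne_zero n hp.ne_zero) |>.mp h1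

/-- two characters of a `p`-group with values in a local ring of residue characteristic `p` are
congruent modulo the maximal ideal -/
theorem ihq_char_sub_mem {𝒪 : Type*} [CommRing 𝒪] [IsLocalRing 𝒪] {p : ℕ} (hp : p.Prime)
    (hp𝒪 : (p : 𝒪) ∈ maximalIdeal 𝒪) {G : Type*} [Monoid G] (χ χ' : G →* 𝒪) (g : G) (n : ℕ)
    (hg : g ^ (p ^ n) = 1) : χ g - χ' g ∈ maximalIdeal 𝒪 := by
  have h1 := ihq_sub_one_mem_of_pow hp hp𝒪 (χ g) n (by rw [← map_pow, hg, map_one])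
  have h2 := ihq_sub_one_mem_of_pow hp hp𝒪 (χ' g) n (by rw [← map_pow, hg, map_one])
  have h3 : χ g - χ' g = (χ g - 1) - (χ' g - 1) := by ring
  rw [h3]
  exact sub_mem h1 h2

end Cong

end Fermat.Agent.Ihara
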