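/-
IHARA track, package (A) [GRP] (helper9), part 6: **the hypotheses of the composite twist**
(helper7's `IhtcHyp`) for `H = ker κ`, and the generators `γ_i` as values of helper7's square roots
`ihtcY`.
-/
import Mathlib
import Fermat.Agent.Lib.Ihara.Grp.Kappa
import Fermat.Agent.Lib.Ihara.Grp.Ext
import Fermat.Agent.Lib.Ihara.Tw.Chain

set_option autoImplicit false
set_option linter.unusedSectionVars false
set_option linter.unusedVariables false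
set_option linter.style.haveILetI false

namespace Fermat.Agent.Ihara

open Multiplicative

section

variable {ι : Type*} {M : ℕ} [NeZero M] {q m : ι → ℕ}

theorem ihq_not_sq_dvd (hM : Squarefree M) {r : ℕ} (hr : r.Prime) : ¬ r * r ∣ M := fun h =>
  hr.not_isUnit (hM r h)

/-- **`IhtcHyp` for `H = ker κ`**: `Rl` any duplicate-free list of prime divisors of the squarefree
`M` containing all the `q i`; `e` a common multiple of the `m i`, `2 * k r = e + 1` -/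
theorem ihq_tcHyp (hM : Squarefree M) (h : IhqData M q m) (e : ℕ) (he : ∀ i, m i ∣ e)
    (k : ℕ → ℕ) (Rl : List ℕ) (hnd : Rl.Nodup) (hRl1 : ∀ r ∈ Rl, r.Prime ∧ r ∣ M)
    (hRl2 : ∀ i, q i ∈ Rl) (hk : ∀ r ∈ Rl, 2 * k r = e + 1) :
    IhtcHyp M (ihqKappa h).ker Rl k where
  nodup := hnd
  prime r hr := (hRl1 r hr).1
  dvd r hr := (hRl1 r hr).2
  not_sq r hr := ihq_not_sq_dvd hM (hRl1 r hr).1
  supp x hx := by
    rw [ihq_mem_ker_iff]
    intro i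
    rw [hx (q i) (hRl2 i) (h.dvd i), one_pow]
  sqrt r hr u := ihq_sqrt_of_dvd h e he (k r) (hk r hr) _

/-- **`γ_i = κ (y_{q_i}(u))` for some `u`** (`y = ihtcY` helper7's square root of the CRT section):
so a character `Ψ` of `(ℤ/M)ˣ / H` with `Ψ ∘ y_{q_i} = 1` is trivial on `γ_i` -/
theorem ihq_exists_Y_gen [DecidableEq ι] (hM : Squarefree M) (h : IhqData M q m) (e : ℕ)
    (he : ∀ i, m i ∣ e) (k : ℕ → ℕ) (i : ι) (hk : 2 * k (q i) = e + 1) :
    ∃ u : (ZMod (q i))ˣ, ihqKappa h (ihtcY M k (q i) u) = ihqGen m i := by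
  haveI : Fact (q i).Prime := ⟨h.prime i⟩
  have hr2 : ¬ q i * q i ∣ M := ihq_not_sq_dvd hM (h.prime i)
  obtain ⟨u, hu⟩ := ihq_exists_iota_pow_gen h e he (k (q i)) hk i (ihtIota M (q i) (h.dvd i) hr2)
    (ihtIota_mod_r M (q i) (h.dvd i) hr2) (ihtIota_mod_div M (q i) (h.dvd i) hr2)
  refine ⟨u, ?_⟩
  rw [ihtcY_apply, ihtcIota_eq M (q i) (h.dvd i) hr2]
  exact hu

/-- **`IhtcHyp` for the bigger level structure `H′ = ker κ` of the family without `i`** (whole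
`q i`-component inside) **and the list `Rl.erase (q i)`**, same `k` -/
theorem ihq_tcHyp_erase (hM : Squarefree M) (h : IhqData M q m) (e : ℕ) (he : ∀ i, m i ∣ e)
    (k : ℕ → ℕ) (Rl : List ℕ) (hnd : Rl.Nodup) (hRl1 : ∀ r ∈ Rl, r.Prime ∧ r ∣ M)
    (hRl2 : ∀ i, q i ∈ Rl) (hk : ∀ r ∈ Rl, 2 * k r = e + 1) (i : ι) :
    IhtcHyp M (ihqKappa (h.comp (Subtype.val : {j // j ≠ i} → ι) Subtype.val_injective)).ker
      (Rl.erase (q i)) k :=
  ihq_tcHyp hM (h.comp (Subtype.val : {j // j ≠ i} → ι) Subtype.val_injective) e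
    (fun j => he j.1) k (Rl.erase (q i)) (hnd.erase _)
    (fun r hr => hRl1 r (List.mem_of_mem_erase hr))
    (fun j => (List.mem_erase_of_ne (fun e' => j.2 (h.inj e'))).mpr (hRl2 j.1))
    (fun r hr => hk r (List.mem_of_mem_erase hr))

/-- the CRT section at `q i` has values in the kernel of the family without `i` -/
theorem ihq_iota_mem_ker_ne (hM : Squarefree M) (h : IhqData M q m) (i : ι)
    (u : (ZMod (q i))ˣ) :
    ihtcIota M (q i) u
      ∈ (ihqKappa (h.comp (Subtype.val : {j // j ≠ i} → ι) Subtype.val_injective)).ker := by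
  haveI : Fact (q i).Prime := ⟨h.prime i⟩
  have hr2 : ¬ q i * q i ∣ M := ihq_not_sq_dvd hM (h.prime i)
  rw [ihtcIota_eq M (q i) (h.dvd i) hr2]
  exact ihq_mem_ker_ne_of_mod_div h i _ (ihtIota_mod_div M (q i) (h.dvd i) hr2 u)

end

section Concrete

variable {p M r : ℕ} [NeZero M] {Tc : Finset Nat.Primes} {qv : Fin r → ℕ}
  (h : IhqData M (ihqPrimes Tc qv) (ihqOrders Tc qv p))

/-- **helper8's `hψq`**: a character `Ψ` of `(ℤ/M)ˣ` which on `Δ₁′ = Δ₁ ⊔ ⟨γ_i⟩` is given by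
`χ′ = ihqChi' h i χ` is trivial on the `q_i`-component -/
theorem ihq_char_iota_trivial_inr (hM : Squarefree M) {𝒪 R : Type*} [Monoid 𝒪] [Monoid R]
    (f : 𝒪 →* R) (χ : ↥(ihqD1 h) →* 𝒪) (i : Fin r) (Ψ : (ZMod M)ˣ →* R)
    (hΨ : ∀ (d : (ZMod M)ˣ) (hd : (d : (ZMod M)ˣ ⧸ (ihqKappa h).ker) ∈ ihqD1' h i),
      Ψ d = f (ihqChi' h i χ ⟨_, hd⟩))
    (u : (ZMod (qv i))ˣ) : Ψ (ihtcIota M (qv i) u) = 1 :=
  ihq_char_trivial_inr h f χ i Ψ hΨ _ (ihq_iota_mem_ker_ne hM h (Sum.inr i) u)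

/-- **(I) [E′]**: a character `Ψ` of `(ℤ/M)ˣ` which on `Δ₁` is given by `χ″` with `χ″ γ_v = 1` is
trivial on the `v`-component -/
theorem ihq_char_iota_trivial_inl (hM : Squarefree M) {𝒪 R : Type*} [Monoid 𝒪] [Monoid R]
    (f : 𝒪 →* R) (χ'' : ↥(ihqD1 h) →* 𝒪) (v : ↥Tc)
    (hχ : χ'' ((ihqD1Equiv h).symm (ihqGen _ v)) = 1) (Ψ : (ZMod M)ˣ →* R)
    (hΨ : ∀ (d : (ZMod M)ˣ) (hd : (d : (ZMod M)ˣ ⧸ (ihqKappa h).ker) ∈ ihqD1 h),
      Ψ d = f (χ'' ⟨_, hd⟩))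
    (u : (ZMod ((v : Nat.Primes) : ℕ))ˣ) : Ψ (ihtcIota M ((v : Nat.Primes) : ℕ) u) = 1 :=
  ihq_char_trivial_inl h f χ'' v hχ Ψ hΨ _ (ihq_iota_mem_ker_ne hM h (Sum.inl v) u)

end Concrete

end Fermat.Agent.Ihara
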