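/-
IHARA track, package (A) [GRP] (helper9), part 8: **the canonical instantiation at the level
`M_n = N · ∏ qv i`** under the hypotheses of `IhaModular`: the data `h`, the list `Rl` of the twisting
primes (`Tc ∪ Q`), the square-root exponent `k`, `IhtcHyp`, `6 ≤ M_n`, and the relation between
the exponents `a` of `IhaModular` (`v = 1 + p ^ a * u`, `p ∤ u`) and `padicValNat p (v - 1)`.
-/
import Mathlib
import Fermat.Agent.Lib.Ihara.Grp.Level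
import Fermat.Agent.Lib.Ihara.Grp.Tw

set_option autoImplicit false
set_option linter.unusedSectionVars false
set_option linter.unusedVariables false
set_option linter.style.haveILetI false

namespace Fermat.Agent.Ihara

open Multiplicative

/-- `v = 1 + p ^ a * u`, `p ∤ u` ⟹ `a = v_p(v - 1)` -/
theorem ihq_padicValNat_eq {p v a u : ℕ} (hp : p.Prime) (h : v = 1 + p ^ a * u) (hu : ¬ p ∣ u) :
    padicValNat p (v - 1) = a := by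
  haveI := Fact.mk hp
  have hu0 : u ≠ 0 := fun h0 => hu (h0 ▸ dvd_zero p)
  have h1 : v - 1 = p ^ a * u := by omega
  rw [h1, padicValNat.mul (pow_ne_zero a hp.ne_zero) hu0, padicValNat.prime_pow,
    padicValNat.eq_zero_of_not_dvd hu, add_zero]

section

variable {p N r : ℕ} (Tc : Finset Nat.Primes) (qv : Fin r → ℕ)

/-- the primes of `N` lie in `S`, so the Taylor–Wiles primes (outside `S`) do not divide `N` -/
theorem ihq_not_dvd_of_notMem (hTc : ∀ v : Nat.Primes, v ∈ Tc ↔ (v : ℕ) ∣ N ∧ (v : ℕ) ≠ 2)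
    (S : Finset ℕ) (h2S : 2 ∈ S) (hTcS : ∀ v ∈ Tc, (v : ℕ) ∈ S) {q : ℕ} (hq : q.Prime)
    (hqS : q ∉ S) : ¬ q ∣ N := by
  intro hqN
  by_cases h2 : q = 2
  · exact hqS (h2 ▸ h2S)
  · exact hqS (hTcS ⟨q, hq⟩ ((hTc ⟨q, hq⟩).2 ⟨hqN, h2⟩))

/-- **the data at level `M_n` under the hypotheses of `IhaModular`** -/
theorem ihq_data_of_modular (hTc : ∀ v : Nat.Primes, v ∈ Tc ↔ (v : ℕ) ∣ N ∧ (v : ℕ) ≠ 2)
    (S : Finset ℕ) (h2S : 2 ∈ S) (hTcS : ∀ v ∈ Tc, (v : ℕ) ∈ S)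
    (hqinj : Function.Injective qv) (hqv : ∀ i, (qv i).Prime ∧ qv i ∉ S) :
    IhqData (N * ∏ i, qv i) (ihqPrimes Tc qv) (ihqOrders Tc qv p) :=
  ihq_data_sum Tc qv (fun v => ((hTc v).1 v.2).1) hqinj (fun i => (hqv i).1)
    (fun i => ihq_not_dvd_of_notMem Tc hTc S h2S hTcS (hqv i).1 (hqv i).2)

/-- `6 ≤ N` for a squarefree even `N` with an odd prime factor -/
theorem ihq_six_le (hN : Squarefree N) (h2 : 2 ∣ N) {q : ℕ} (hq : q.Prime) (hq2 : q ≠ 2)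
    (hqN : q ∣ N) (hN0 : N ≠ 0) : 6 ≤ N := by
  have hcop : Nat.Coprime 2 q := (Nat.coprime_primes Nat.prime_two hq).mpr (Ne.symm hq2)
  have h2q : 2 * q ∣ N := hcop.mul_dvd_of_dvd_of_dvd h2 hqN
  have h3 : 3 ≤ q := by
    have := hq.two_le
    omega
  have := Nat.le_of_dvd (Nat.pos_of_ne_zero hN0) h2q
  omega

/-- the list of the twisting primes `Tc ∪ Q` -/
noncomputable def ihqRl : List ℕ :=
  (Finset.univ : Finset (↥Tc ⊕ Fin r)).toList.map (ihqPrimes Tc qv)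

theorem ihq_mem_Rl_iff (x : ℕ) : x ∈ ihqRl Tc qv ↔ ∃ j, ihqPrimes Tc qv j = x := by
  unfold ihqRl
  rw [List.mem_map]
  constructor
  · rintro ⟨j, -, hj⟩
    exact ⟨j, hj⟩
  · rintro ⟨j, hj⟩
    exact ⟨j, Finset.mem_toList.mpr (Finset.mem_univ j), hj⟩

theorem ihq_mem_Rl (j : ↥Tc ⊕ Fin r) : ihqPrimes Tc qv j ∈ ihqRl Tc qv :=
  (ihq_mem_Rl_iff Tc qv _).mpr ⟨j, rfl⟩

theorem ihq_mem_Rl_inl (v : ↥Tc) : ((v : Nat.Primes) : ℕ) ∈ ihqRl Tc qv := ihq_mem_Rl Tc qv (Sum.inl v)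

theorem ihq_mem_Rl_inr (i : Fin r) : qv i ∈ ihqRl Tc qv := ihq_mem_Rl Tc qv (Sum.inr i)

theorem ihqRl_nodup {M : ℕ} (h : IhqData M (ihqPrimes Tc qv) (ihqOrders Tc qv p)) :
    (ihqRl Tc qv).Nodup :=
  (Finset.nodup_toList _).map h.inj

theorem ihqRl_prod : (ihqRl Tc qv).prod = (∏ v : ↥Tc, ((v : Nat.Primes) : ℕ)) * ∏ i, qv i := by
  unfold ihqRl
  rw [Finset.prod_map_toList, Fintype.prod_sum_type]
  rfl

/-- the common exponent `e = ∏ (orders)` (a power of `p`) -/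
noncomputable def ihqE (p : ℕ) : ℕ := ∏ j, ihqOrders Tc qv p j

/-- the square-root exponent `k = (e + 1) / 2` -/
noncomputable def ihqK (p : ℕ) : ℕ → ℕ := fun _ => (ihqE Tc qv p + 1) / 2

theorem ihq_dvd_E (j : ↥Tc ⊕ Fin r) : ihqOrders Tc qv p j ∣ ihqE Tc qv p :=
  Finset.dvd_prod_of_mem _ (Finset.mem_univ j)

theorem ihqE_odd (hp : p.Prime) (hp2 : p ≠ 2) : Odd (ihqE Tc qv p) :=
  ihq_odd_prod fun j => by
    rw [ihqOrders_eq]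
    exact (hp.odd_of_ne_two hp2).pow

theorem ihqK_spec (hp : p.Prime) (hp2 : p ≠ 2) (x : ℕ) :
    2 * ihqK Tc qv p x = ihqE Tc qv p + 1 := by
  obtain ⟨c, hc⟩ := ihqE_odd Tc qv hp hp2
  unfold ihqK
  rw [hc]
  omega

/-- **the hypotheses of the composite twist at `(M_n, H_n)` with the canonical `Rl`, `k`** -/
theorem ihq_tcHyp_sum {M : ℕ} [NeZero M] (hM : Squarefree M) (hp : p.Prime) (hp2 : p ≠ 2)
    (h : IhqData M (ihqPrimes Tc qv) (ihqOrders Tc qv p)) :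
    IhtcHyp M (ihqKappa h).ker (ihqRl Tc qv) (ihqK Tc qv p) :=
  ihq_tcHyp hM h (ihqE Tc qv p) (ihq_dvd_E Tc qv) (ihqK Tc qv p) (ihqRl Tc qv)
    (ihqRl_nodup Tc qv h)
    (fun x hx => by
      obtain ⟨j, rfl⟩ := (ihq_mem_Rl_iff Tc qv x).mp hx
      exact ⟨h.prime j, h.dvd j⟩)
    (ihq_mem_Rl Tc qv) (fun x _ => ihqK_spec Tc qv hp hp2 x)

/-- the same for the bigger level structure `H′_j` and `Rl.erase (q j)` -/
theorem ihq_tcHyp_sum_erase {M : ℕ} [NeZero M] (hM : Squarefree M) (hp : p.Prime) (hp2 : p ≠ 2)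
    (h : IhqData M (ihqPrimes Tc qv) (ihqOrders Tc qv p)) (j : ↥Tc ⊕ Fin r) :
    IhtcHyp M
      (ihqKappa (h.comp (Subtype.val : {j' // j' ≠ j} → ↥Tc ⊕ Fin r) Subtype.val_injective)).ker
      ((ihqRl Tc qv).erase (ihqPrimes Tc qv j)) (ihqK Tc qv p) :=
  ihq_tcHyp_erase hM h (ihqE Tc qv p) (ihq_dvd_E Tc qv) (ihqK Tc qv p) (ihqRl Tc qv)
    (ihqRl_nodup Tc qv h)
    (fun x hx => by
      obtain ⟨j, rfl⟩ := (ihq_mem_Rl_iff Tc qv x).mp hx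
      exact ⟨h.prime j, h.dvd j⟩)
    (ihq_mem_Rl Tc qv) (fun x _ => ihqK_spec Tc qv hp hp2 x) j

/-- **`γ_j = κ (y_{q_j}(u))`** with the canonical `k` -/
theorem ihq_exists_Y_gen_sum {M : ℕ} [NeZero M] (hM : Squarefree M) (hp : p.Prime) (hp2 : p ≠ 2)
    (h : IhqData M (ihqPrimes Tc qv) (ihqOrders Tc qv p)) (j : ↥Tc ⊕ Fin r) :
    ∃ u : (ZMod (ihqPrimes Tc qv j))ˣ,
      ihqKappa h (ihtcY M (ihqK Tc qv p) (ihqPrimes Tc qv j) u) = ihqGen (ihqOrders Tc qv p) j := by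
  classical
  exact ihq_exists_Y_gen hM h (ihqE Tc qv p) (ihq_dvd_E Tc qv) (ihqK Tc qv p) j
    (ihqK_spec Tc qv hp hp2 _)

/-- **the hypothesis `hΨ` of helper4's `ihn_PT_strictLift` at a Taylor–Wiles prime**: a character `Ψ`
of `(ℤ/M)ˣ` given on `Δ₂` by `χ` with `χ γ_i ≠ 1` is nontrivial on the square roots `y_{q_i}` -/
theorem ihq_exists_Y_ne_one_inr {M : ℕ} [NeZero M] (hM : Squarefree M) (hp : p.Prime)
    (hp2 : p ≠ 2) (h : IhqData M (ihqPrimes Tc qv) (ihqOrders Tc qv p)) (i : Fin r)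
    {R : Type*} [Monoid R] (Ψ : (ZMod M)ˣ →* R) (χ : ↥(ihqD2 h) →* R)
    (hΨ : ∀ (d : (ZMod M)ˣ) (hd : (d : (ZMod M)ˣ ⧸ (ihqKappa h).ker) ∈ ihqD2 h),
      Ψ d = χ ⟨_, hd⟩)
    (hχ : χ ((ihqD2Equiv h).symm (ihqGen _ i)) ≠ 1) :
    ∃ u : (ZMod (qv i))ˣ, Ψ (ihtcY M (ihqK Tc qv p) (qv i) u) ≠ 1 := by
  have key : ∃ u : (ZMod (qv i))ˣ, ihqKappa h (ihtcY M (ihqK Tc qv p) (qv i) u)
      = ihqGen (ihqOrders Tc qv p) (Sum.inr i) :=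
    ihq_exists_Y_gen_sum Tc qv hM hp hp2 h (Sum.inr i)
  obtain ⟨u, hu⟩ := key
  refine ⟨u, ?_⟩
  have h1 := ihqD2Equiv_symm_gen h i _ hu
  have hmem : ((ihtcY M (ihqK Tc qv p) (qv i) u : (ZMod M)ˣ) : (ZMod M)ˣ ⧸ (ihqKappa h).ker)
      ∈ ihqD2 h := by
    rw [← h1]
    exact Subtype.property _
  have h2 : (⟨_, hmem⟩ : ↥(ihqD2 h)) = (ihqD2Equiv h).symm (ihqGen _ i) := Subtype.ext h1.symm
  have h3 := hΨ _ hmem
  rw [h2] at h3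
  intro h0
  exact hχ (h3.symm.trans h0)

/-- **the hypothesis `hΨ` of helper4's `ihn_PT_strictLift` at `v ∈ Tc`**: a character `Ψ` of
`(ℤ/M)ˣ` given on `Δ₁` by `f ∘ χ′` with `f (χ′ γ_v) ≠ 1` is nontrivial on the square roots `y_v` -/
theorem ihq_exists_Y_ne_one_inl {M : ℕ} [NeZero M] (hM : Squarefree M) (hp : p.Prime)
    (hp2 : p ≠ 2) (h : IhqData M (ihqPrimes Tc qv) (ihqOrders Tc qv p)) (v : ↥Tc)
    {𝒪 R : Type*} [Monoid 𝒪] [Monoid R] (f : 𝒪 →* R) (Ψ : (ZMod M)ˣ →* R)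
    (χ' : ↥(ihqD1 h) →* 𝒪)
    (hΨ : ∀ (d : (ZMod M)ˣ) (hd : (d : (ZMod M)ˣ ⧸ (ihqKappa h).ker) ∈ ihqD1 h),
      Ψ d = f (χ' ⟨_, hd⟩))
    (hχ : f (χ' ((ihqD1Equiv h).symm (ihqGen _ v))) ≠ 1) :
    ∃ u : (ZMod ((v : Nat.Primes) : ℕ))ˣ,
      Ψ (ihtcY M (ihqK Tc qv p) ((v : Nat.Primes) : ℕ) u) ≠ 1 := by
  have key : ∃ u : (ZMod ((v : Nat.Primes) : ℕ))ˣ,
      ihqKappa h (ihtcY M (ihqK Tc qv p) ((v : Nat.Primes) : ℕ) u)
        = ihqGen (ihqOrders Tc qv p) (Sum.inl v) :=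
    ihq_exists_Y_gen_sum Tc qv hM hp hp2 h (Sum.inl v)
  obtain ⟨u, hu⟩ := key
  refine ⟨u, ?_⟩
  have h1 := ihqD1Equiv_symm_gen h v _ hu
  have hmem : ((ihtcY M (ihqK Tc qv p) ((v : Nat.Primes) : ℕ) u : (ZMod M)ˣ) :
      (ZMod M)ˣ ⧸ (ihqKappa h).ker) ∈ ihqD1 h := by
    rw [← h1]
    exact Subtype.property _
  have h2 : (⟨_, hmem⟩ : ↥(ihqD1 h)) = (ihqD1Equiv h).symm (ihqGen _ v) := Subtype.ext h1.symm
  have h3 := hΨ _ hmem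
  rw [h2] at h3
  intro h0
  exact hχ (h3.symm.trans h0)

end

end Fermat.Agent.Ihara
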