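/-
IHARA track, package (A) [GRP] (helper9), part 3: **the level structure `H = ker κ`**.

For `M` squarefree, `p ≥ 5`, distinct primes `q i ∣ M` with `p ^ e i ∣ q i - 1`: the kernel of
`ihqKappa : (ZMod M)ˣ ↠ ∏_i C_{p ^ e i}` satisfies helper1's `IhfLevel p M H` (and so does every
bigger subgroup).
-/
import Mathlib
import Fermat.Agent.Lib.Ihara.Grp.Kappa
import Fermat.Agent.Lib.Ihara.Grp.Sum
import Fermat.Agent.Lib.Ihara.Fr.Defs

set_option autoImplicit false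
set_option linter.unusedSectionVars false
set_option linter.unusedVariables false
set_option linter.style.haveILetI false

namespace Fermat.Agent.Ihara

open Matrix MatrixGroups CongruenceSubgroup Multiplicative
open Fermat.Agent.DS

/-- **parabolic (and ±unipotent) elements of `Γ₀(M)`, `M` squarefree, have `d ≡ ±1 mod M`** -/
theorem ihq_par {M : ℕ} (hM : Squarefree M) (H : Subgroup (ZMod M)ˣ)
    (hneg : (-1 : (ZMod M)ˣ) ∈ H) (γ : SL(2, ℤ)) (hγ : γ ∈ Gamma0 M)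
    (htr : (γ : Matrix (Fin 2) (Fin 2) ℤ).trace ^ 2 = 4) : γ ∈ ihfGammaH M H := by
  have hdet := dsh_det_eq γ
  have hc : ((γ 1 0 : ℤ) : ZMod M) = 0 := Gamma0_mem.mp hγ
  have hc' : (M : ℤ) ∣ γ 1 0 := (ZMod.intCast_zmod_eq_zero_iff_dvd _ _).mp hc
  have hMsq : Squarefree (M : ℤ) := Int.squarefree_natCast.mpr hM
  rw [Matrix.trace_fin_two] at htr
  have htr' : (γ 0 0 + γ 1 1 - 2) * (γ 0 0 + γ 1 1 + 2) = 0 := by
    have : ((γ : Matrix (Fin 2) (Fin 2) ℤ) 0 0 + (γ : Matrix (Fin 2) (Fin 2) ℤ) 1 1) ^ 2 = 4 := htr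
    linear_combination this
  rcases mul_eq_zero.mp htr' with h2 | h2
  · -- `a + d = 2`: `(d - 1)^2 = -bc`
    have h3 : (M : ℤ) ∣ (γ 1 1 - 1) ^ 2 := by
      have : (γ 1 1 - 1) ^ 2 = -(γ 0 1) * γ 1 0 := by
        linear_combination (γ 1 1) * h2 - hdet
      rw [this]
      exact Dvd.dvd.mul_left hc' _
    have h4 : (M : ℤ) ∣ γ 1 1 - 1 := (hMsq.dvd_pow_iff_dvd two_ne_zero).mp h3
    refine ⟨hγ, 1, one_mem _, ?_⟩
    have h5 := (ZMod.intCast_zmod_eq_zero_iff_dvd _ _).mpr h4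
    push_cast at h5
    rw [Units.val_one]
    exact sub_eq_zero.mp h5
  · -- `a + d = -2`: `(d + 1)^2 = -bc`
    have h3 : (M : ℤ) ∣ (γ 1 1 + 1) ^ 2 := by
      have : (γ 1 1 + 1) ^ 2 = -(γ 0 1) * γ 1 0 := by
        linear_combination (γ 1 1) * h2 - hdet
      rw [this]
      exact Dvd.dvd.mul_left hc' _
    have h4 : (M : ℤ) ∣ γ 1 1 + 1 := (hMsq.dvd_pow_iff_dvd two_ne_zero).mp h3
    refine ⟨hγ, -1, hneg, ?_⟩
    have h5 := (ZMod.intCast_zmod_eq_zero_iff_dvd _ _).mpr h4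
    push_cast at h5
    rw [Units.val_neg, Units.val_one]
    exact eq_neg_of_add_eq_zero_left h5

/-- the hypotheses `IhfLevel` are inherited by bigger subgroups -/
theorem ihq_level_mono {p M : ℕ} {H H' : Subgroup (ZMod M)ˣ} (hle : H ≤ H')
    (hL : IhfLevel p M H) : IhfLevel p M H' where
  prime := hL.prime
  five_le := hL.five_le
  neg_mem := hle hL.neg_mem
  pgroup d := (hL.pgroup d).imp fun _ h => hle h
  par γ hγ htr := ihfGammaH_mono hle (hL.par γ hγ htr)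

section

variable {ι : Type*} [Fintype ι] {M : ℕ} {q m : ι → ℕ}

/-- **the level structure `ker κ`** (all `m i` powers of `p`) -/
theorem ihq_level {p : ℕ} (hp : p.Prime) (hp5 : 5 ≤ p) (hM : Squarefree M)
    (h : IhqData M q m) (hm : ∀ i, ∃ e : ℕ, m i = p ^ e) : IhfLevel p M (ihqKappa h).ker := by
  have hp2 : p ≠ 2 := by omega
  choose e he using hm
  have hodd : ∀ i, Odd (m i) := fun i => by rw [he i]; exact (hp.odd_of_ne_two hp2).pow
  refine ⟨hp, hp5, ihq_neg_one_mem_ker h hodd, fun d => ⟨∑ i, e i, ?_⟩,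
    ihq_par hM _ (ihq_neg_one_mem_ker h hodd)⟩
  have h1 := ihq_pow_mem_ker h d
  have h2 : ∏ i, m i = p ^ ∑ i, e i := by
    rw [← Finset.prod_pow_eq_pow_sum]
    exact Finset.prod_congr rfl fun i _ => he i
  rwa [h2] at h1

end

section Concrete

variable {p N r : ℕ} (Tc : Finset Nat.Primes) (qv : Fin r → ℕ)

theorem ihqOrders_pow (j : ↥Tc ⊕ Fin r) : ∃ e : ℕ, ihqOrders Tc qv p j = p ^ e :=
  ⟨_, ihqOrders_eq Tc qv j⟩

/-- **the level structure `H_n ≤ (ℤ/M_n)ˣ`, `M_n = N · ∏ qv i`** -/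
theorem ihq_level_sum (hp : p.Prime) (hp5 : 5 ≤ p) (hN : Squarefree N)
    (hTcN : ∀ v : ↥Tc, ((v : Nat.Primes) : ℕ) ∣ N)
    (hqinj : Function.Injective qv) (hqprime : ∀ i, (qv i).Prime) (hqN : ∀ i, ¬ qv i ∣ N) :
    IhfLevel p (N * ∏ i, qv i)
      (ihqKappa (ihq_data_sum (p := p) Tc qv hTcN hqinj hqprime hqN)).ker :=
  ihq_level hp hp5 (ihq_squarefree_level qv hN hqinj hqprime hqN) _ (ihqOrders_pow Tc qv)

end Concrete

end Fermat.Agent.Ihara
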