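/-
IHARA track, package (A) [GRP] (helper9): **the arithmetic of the levels** `M = N · ∏ qv i` and
`N' = M · ∏ Rl` (`Rl = ihqRl Tc qv` the twisting primes `Tc ∪ Q`) under the hypotheses of `IhaModular`:
positivity, `6 ≤ M`, squarefreeness, the prime divisors of `N'` lie in `{2, p} ∪ Tc ∪ Q`, `p ∤ N'`,
`2 ∥ N'` (the hypotheses `hM`, `hMsq`, `hne`, `hS`, `hpN'`, `hSmin` of helper7's `ihk_hecke`).
-/
import Mathlib
import Fermat.Agent.Lib.Ihara.Grp.Inst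
import Fermat.Agent.Lib.Ihara.G1.Unframed

set_option autoImplicit false
set_option linter.unusedSectionVars false
set_option linter.unusedVariables false
set_option linter.style.haveILetI false

namespace Fermat.Agent.Ihara

section Arith

variable {p N r : ℕ} (Tc : Finset Nat.Primes) (qv : Fin r → ℕ)

/-- the prime divisors of `N` are `2` and the primes of `Tc` -/
theorem ihq_prime_dvd_level (hTc : ∀ v : Nat.Primes, v ∈ Tc ↔ (v : ℕ) ∣ N ∧ (v : ℕ) ≠ 2)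
    {l : ℕ} (hl : l.Prime) (hlN : l ∣ N) : l = 2 ∨ l ∈ ihgNat Tc := by
  by_cases h2 : l = 2
  · exact Or.inl h2
  · right
    have : (⟨l, hl⟩ : Nat.Primes) ∈ Tc := (hTc ⟨l, hl⟩).2 ⟨hlN, h2⟩
    exact (mem_ihgNat (v := ⟨l, hl⟩)).2 this

/-- the prime divisors of `∏ qv i` -/
theorem ihq_prime_dvd_prod (hqprime : ∀ i, (qv i).Prime) {l : ℕ} (hl : l.Prime)
    (h : l ∣ ∏ i, qv i) : ∃ i, qv i = l := by
  obtain ⟨i, -, hi⟩ := (Prime.dvd_finsetProd_iff hl.prime _).mp h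
  exact ⟨i, ((Nat.prime_dvd_prime_iff_eq hl (hqprime i)).mp hi).symm⟩

/-- the prime divisors of `∏ Tc` -/
theorem ihq_prime_dvd_prod_Tc {l : ℕ} (hl : l.Prime)
    (h : l ∣ ∏ v : ↥Tc, ((v : Nat.Primes) : ℕ)) : l ∈ ihgNat Tc := by
  obtain ⟨v, -, hv⟩ := (Prime.dvd_finsetProd_iff hl.prime _).mp h
  have h1 : l = ((v : Nat.Primes) : ℕ) := (Nat.prime_dvd_prime_iff_eq hl (v : Nat.Primes).2).mp hv
  rw [h1]
  exact (mem_ihgNat (v := (v : Nat.Primes))).2 v.2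

/-- **the arithmetic of the levels under the hypotheses of `IhaModular`** -/
theorem ihq_arith (hp : p.Prime) (hp2 : p ≠ 2) (hN0 : 0 < N) (hNsq : Squarefree N)
    (h2N : 2 ∣ N) (hpN : ¬ p ∣ N)
    (hTc : ∀ v : Nat.Primes, v ∈ Tc ↔ (v : ℕ) ∣ N ∧ (v : ℕ) ≠ 2)
    (S : Finset ℕ) (hS : ({2, p} : Finset ℕ) ⊆ S) (hTcS : ∀ v ∈ Tc, (v : ℕ) ∈ S)
    (hqinj : Function.Injective qv) (hqv : ∀ i, (qv i).Prime ∧ qv i ∉ S) (q₀ : ↥Tc) :
    0 < N * ∏ i, qv i ∧ 6 ≤ N * ∏ i, qv i ∧ Squarefree (N * ∏ i, qv i) ∧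
    ¬ p ∣ N * ∏ i, qv i ∧
    ihqRl Tc qv ≠ [] ∧
    0 < N * (∏ i, qv i) * (ihqRl Tc qv).prod ∧
    ¬ p ∣ N * (∏ i, qv i) * (ihqRl Tc qv).prod ∧
    (∀ l : ℕ, l.Prime → l ∣ N * (∏ i, qv i) * (ihqRl Tc qv).prod →
      l ∈ ({2, p} : Finset ℕ) ∪ ihgNat Tc ∪ Finset.univ.image qv) ∧
    (∀ q ∈ ({2, p} : Finset ℕ), q.Prime → q ≠ p →
      q ∣ N * (∏ i, qv i) * (ihqRl Tc qv).prod ∧ ¬ q ^ 2 ∣ N * (∏ i, qv i) * (ihqRl Tc qv).prod) ∧
    (∀ l : ℕ, l.Prime → l ∉ ({2, p} : Finset ℕ) ∪ ihgNat Tc ∪ Finset.univ.image qv →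
      ¬ l ∣ N ∧ l ≠ p) ∧
    (∀ i, ¬ qv i ∣ N ∧ qv i ≠ p ∧ qv i ≠ 2) ∧
    (∀ v : ↥Tc, ((v : Nat.Primes) : ℕ) ∣ N ∧ ((v : Nat.Primes) : ℕ) ≠ p ∧
      ((v : Nat.Primes) : ℕ) ≠ 2) := by
  classical
  have h2S : 2 ∈ S := hS (by simp)
  have hpS : p ∈ S := hS (by simp)
  have hqprime : ∀ i, (qv i).Prime := fun i => (hqv i).1
  have hqN : ∀ i, ¬ qv i ∣ N := fun i =>
    ihq_not_dvd_of_notMem Tc hTc S h2S hTcS (hqv i).1 (hqv i).2
  have hq2 : ∀ i, qv i ≠ 2 := fun i h => (hqv i).2 (h ▸ h2S)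
  have hqp : ∀ i, qv i ≠ p := fun i h => (hqv i).2 (h ▸ hpS)
  have hprodpos : 0 < ∏ i, qv i := Finset.prod_pos fun i _ => (hqprime i).pos
  have hMpos : 0 < N * ∏ i, qv i := Nat.mul_pos hN0 hprodpos
  have hMsq : Squarefree (N * ∏ i, qv i) := ihq_squarefree_level qv hNsq hqinj hqprime hqN
  -- the primes of `Tc`
  have hTcN : ∀ v : ↥Tc, ((v : Nat.Primes) : ℕ) ∣ N := fun v => ((hTc v).1 v.2).1
  have hTc2 : ∀ v : ↥Tc, ((v : Nat.Primes) : ℕ) ≠ 2 := fun v => ((hTc v).1 v.2).2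
  have hTcp : ∀ v : ↥Tc, ((v : Nat.Primes) : ℕ) ≠ p := fun v h => hpN (h ▸ hTcN v)
  -- `6 ≤ M`
  have h6N : 6 ≤ N := ihq_six_le hNsq h2N (q₀ : Nat.Primes).2 (hTc2 q₀) (hTcN q₀) hN0.ne'
  have h6 : 6 ≤ N * ∏ i, qv i := le_trans h6N (Nat.le_mul_of_pos_right N hprodpos)
  -- `p ∤ M`
  have hpprod : ¬ p ∣ ∏ i, qv i := by
    intro h
    obtain ⟨i, hi⟩ := ihq_prime_dvd_prod qv hqprime hp h
    exact hqp i hi
  have hpM : ¬ p ∣ N * ∏ i, qv i := by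
    intro h
    rcases (Nat.Prime.dvd_mul hp).mp h with h | h
    · exact hpN h
    · exact hpprod h
  -- `Rl`
  have hRlne : ihqRl Tc qv ≠ [] := List.ne_nil_of_mem (ihq_mem_Rl_inl Tc qv q₀)
  have hRlprod := ihqRl_prod Tc qv
  have hTcprodpos : 0 < ∏ v : ↥Tc, ((v : Nat.Primes) : ℕ) :=
    Finset.prod_pos fun v _ => (v : Nat.Primes).2.pos
  have hRlpos : 0 < (ihqRl Tc qv).prod := by
    rw [hRlprod]
    exact Nat.mul_pos hTcprodpos hprodpos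
  have hN'pos : 0 < N * (∏ i, qv i) * (ihqRl Tc qv).prod := Nat.mul_pos hMpos hRlpos
  have hpTcprod : ¬ p ∣ ∏ v : ↥Tc, ((v : Nat.Primes) : ℕ) := by
    intro h
    obtain ⟨v, -, hv⟩ := (Prime.dvd_finsetProd_iff hp.prime _).mp h
    exact hTcp v ((Nat.prime_dvd_prime_iff_eq hp (v : Nat.Primes).2).mp hv).symm
  have hpRl : ¬ p ∣ (ihqRl Tc qv).prod := by
    rw [hRlprod]
    intro h
    rcases (Nat.Prime.dvd_mul hp).mp h with h | h
    · exact hpTcprod h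
    · exact hpprod h
  have hpN' : ¬ p ∣ N * (∏ i, qv i) * (ihqRl Tc qv).prod := by
    intro h
    rcases (Nat.Prime.dvd_mul hp).mp h with h | h
    · exact hpM h
    · exact hpRl h
  -- `Rl.prod` is odd
  have h2Rl : ¬ 2 ∣ (ihqRl Tc qv).prod := by
    rw [hRlprod]
    intro h
    rcases (Nat.Prime.dvd_mul Nat.prime_two).mp h with h | h
    · obtain ⟨v, -, hv⟩ := (Prime.dvd_finsetProd_iff Nat.prime_two.prime _).mp h
      exact hTc2 v ((Nat.prime_dvd_prime_iff_eq Nat.prime_two (v : Nat.Primes).2).mp hv).symm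
    · obtain ⟨i, hi⟩ := ihq_prime_dvd_prod qv hqprime Nat.prime_two h
      exact hq2 i hi
  refine ⟨hMpos, h6, hMsq, hpM, hRlne, hN'pos, hpN', ?_, ?_, ?_, fun i => ⟨hqN i, hqp i, hq2 i⟩,
    fun v => ⟨hTcN v, hTcp v, hTc2 v⟩⟩
  · intro l hl hlN'
    rw [Finset.mem_union, Finset.mem_union]
    rcases (Nat.Prime.dvd_mul hl).mp hlN' with h | h
    · rcases (Nat.Prime.dvd_mul hl).mp h with h | h
      · rcases ihq_prime_dvd_level Tc hTc hl h with h | h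
        · left; left
          rw [h]
          simp
        · exact Or.inl (Or.inr h)
      · obtain ⟨i, hi⟩ := ihq_prime_dvd_prod qv hqprime hl h
        exact Or.inr (Finset.mem_image.mpr ⟨i, Finset.mem_univ i, hi⟩)
    · rw [hRlprod] at h
      rcases (Nat.Prime.dvd_mul hl).mp h with h | h
      · exact Or.inl (Or.inr (ihq_prime_dvd_prod_Tc Tc hl h))
      · obtain ⟨i, hi⟩ := ihq_prime_dvd_prod qv hqprime hl h
        exact Or.inr (Finset.mem_image.mpr ⟨i, Finset.mem_univ i, hi⟩)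
  · intro q hq hqprime' hqp'
    rw [Finset.mem_insert, Finset.mem_singleton] at hq
    rcases hq with rfl | rfl
    · refine ⟨Dvd.dvd.mul_right (Dvd.dvd.mul_right h2N _) _, ?_⟩
      intro h4
      have hcop : Nat.Coprime (2 ^ 2) (ihqRl Tc qv).prod :=
        Nat.Coprime.pow_left 2 ((Nat.Prime.coprime_iff_not_dvd Nat.prime_two).mpr h2Rl)
      have h4M : 2 ^ 2 ∣ N * ∏ i, qv i := hcop.dvd_of_dvd_mul_right h4
      have := Nat.squarefree_iff_prime_squarefree.mp hMsq 2 Nat.prime_two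
      exact this (by rwa [← pow_two])
    · exact absurd rfl hqp'
  · intro l hl hlS
    rw [Finset.mem_union, Finset.mem_union, not_or, not_or] at hlS
    obtain ⟨⟨h1, h2⟩, -⟩ := hlS
    rw [Finset.mem_insert, Finset.mem_singleton, not_or] at h1
    refine ⟨fun hlN => ?_, h1.2⟩
    rcases ihq_prime_dvd_level Tc hTc hl hlN with h | h
    · exact h1.1 h
    · exact h2 h

end Arith

end Fermat.Agent.Ihara
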