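/-
IHARA track, package (A) [GRP] (helper9): **the lower level at `q₀ ∈ Tc`** for (I) [E′] / (VANISH).

In the setting of `IhaModular` (`M = N · ∏ qv i`, family `Tc ⊕ Q`), for `q₀ : ↥Tc`:

* `H′ = ker κ` of the family without `q₀` (at level `M`): `H ≤ H′`, `H′` contains the `q₀`-component,
  every character `χ″` of `Δ₁` with `χ″ γ_{q₀} = 1` is trivial on `H′` (the hypothesis `hχH'` of
  helper5's `ihv_vanish`);
* the lower level `Nm = (N / q₀) · ∏ qv i`, `Hm = ker κ` of the same family at level `Nm`: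
  `IhtkPair M H′ Nm Hm q₀` (helper5's `ihtk_pair_of_data`), `IhfLevel p Nm Hm`, squarefreeness,
  `Nm = (List.ofFn qv).foldl (· * ·) (N / q₀)`, `N / q₀ = 2 ∨ 6 ≤ N / q₀`, and `Hm = ⊤` when `Nm = 2`.
-/
import Mathlib
import Fermat.Agent.Lib.Ihara.Grp.Arith
import Fermat.Agent.Lib.Ihara.Grp.Ext
import Fermat.Agent.Lib.Ihara.Tk.Grp

set_option autoImplicit false
set_option linter.unusedSectionVars false
set_option linter.unusedVariables false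
set_option linter.style.haveILetI false

namespace Fermat.Agent.Ihara

section Chi

variable {p M r : ℕ} [NeZero M] {Tc : Finset Nat.Primes} {qv : Fin r → ℕ}
  (h : IhqData M (ihqPrimes Tc qv) (ihqOrders Tc qv p))

/-- **the hypothesis `hχH'` of `ihv_vanish`**: a character `χ″` of `Δ₁` with `χ″ γ_v = 1` is trivial on
`H′ = ker κ` of the family without `v` -/
theorem ihq_chi_trivial_inl {𝒪 : Type*} [Monoid 𝒪] (χ'' : ↥(ihqD1 h) →* 𝒪) (v : ↥Tc)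
    (hχ : χ'' ((ihqD1Equiv h).symm (ihqGen _ v)) = 1) (d : (ZMod M)ˣ)
    (hd : d ∈ (ihqKappa (h.comp (Subtype.val : {j // j ≠ (Sum.inl v : ↥Tc ⊕ Fin r)} → _)
      Subtype.val_injective)).ker) :
    ∃ hd' : (d : (ZMod M)ˣ ⧸ (ihqKappa h).ker) ∈ ihqD1 h, χ'' ⟨_, hd'⟩ = 1 := by
  obtain ⟨k, hk⟩ := ihq_mk_eq_pow_G1 h v d hd
  have hmem : (d : (ZMod M)ˣ ⧸ (ihqKappa h).ker) ∈ ihqD1 h := by
    rw [hk]
    exact Subgroup.pow_mem _ (ihqG1_mem h v) k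
  have h1 : (⟨_, hmem⟩ : ↥(ihqD1 h)) = ((ihqD1Equiv h).symm (ihqGen _ v)) ^ k :=
    Subtype.ext (by rw [Subgroup.coe_pow]; exact hk)
  exact ⟨hmem, by rw [h1, map_pow, hχ, one_pow]⟩

end Chi

section Lower

variable {p N r : ℕ} (Tc : Finset Nat.Primes) (qv : Fin r → ℕ)

/-- an even squarefree number is `2` or `≥ 6` -/
theorem ihq_two_or_six_le {K : ℕ} (hK : Squarefree K) (h2 : 2 ∣ K) : K = 2 ∨ 6 ≤ K := by
  obtain ⟨c, rfl⟩ := h2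
  have hc0 : c ≠ 0 := by
    rintro rfl
    rw [mul_zero] at hK
    exact (not_squarefree_zero (R := ℕ)) hK
  have hc2 : ¬ 2 ∣ c := by
    rintro ⟨e, rfl⟩
    have := Nat.squarefree_iff_prime_squarefree.mp hK 2 Nat.prime_two
    exact this ⟨e, by ring⟩
  by_cases hc1 : c = 1
  · left; rw [hc1]
  · right
    have : 3 ≤ c := by
      rcases Nat.lt_or_ge c 3 with h | h
      · interval_cases c
        · exact absurd rfl hc0
        · exact absurd rfl hc1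
        · exact absurd (dvd_refl 2) hc2
      · exact h
    omega

/-- the units of `ZMod 2` are trivial -/
theorem ihq_subgroup_zmod_two (H : Subgroup (ZMod 2)ˣ) : H = ⊤ := by
  rw [eq_top_iff]
  intro x _
  have : x = 1 := Subsingleton.elim _ _
  rw [this]
  exact one_mem H

/-- **the lower level at `q₀ ∈ Tc`** -/
theorem ihq_lower (hp : p.Prime) (hp5 : 5 ≤ p) (hN0 : 0 < N) (hNsq : Squarefree N) (h2N : 2 ∣ N)
    (hTc : ∀ v : Nat.Primes, v ∈ Tc ↔ (v : ℕ) ∣ N ∧ (v : ℕ) ≠ 2)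
    (hqinj : Function.Injective qv) (hqprime : ∀ i, (qv i).Prime) (hqN : ∀ i, ¬ qv i ∣ N)
    (q₀ : ↥Tc)
    (h : IhqData (N * ∏ i, qv i) (ihqPrimes Tc qv) (ihqOrders Tc qv p)) :
    -- the arithmetic of the lower levels
    N / ((q₀ : Nat.Primes) : ℕ) ∣ N ∧ N / ((q₀ : Nat.Primes) : ℕ) ≠ N ∧
    0 < N / ((q₀ : Nat.Primes) : ℕ) ∧ 2 ∣ N / ((q₀ : Nat.Primes) : ℕ) ∧
    Squarefree (N / ((q₀ : Nat.Primes) : ℕ)) ∧
    (N / ((q₀ : Nat.Primes) : ℕ) = 2 ∨ 6 ≤ N / ((q₀ : Nat.Primes) : ℕ)) ∧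
    (∀ i, ¬ qv i ∣ N / ((q₀ : Nat.Primes) : ℕ)) ∧
    N * ∏ i, qv i = N / ((q₀ : Nat.Primes) : ℕ) * (∏ i, qv i) * ((q₀ : Nat.Primes) : ℕ) ∧
    0 < N / ((q₀ : Nat.Primes) : ℕ) * ∏ i, qv i ∧
    Squarefree (N / ((q₀ : Nat.Primes) : ℕ) * ∏ i, qv i) ∧
    ¬ ((q₀ : Nat.Primes) : ℕ) ∣ N / ((q₀ : Nat.Primes) : ℕ) * ∏ i, qv i ∧
    (N / ((q₀ : Nat.Primes) : ℕ) * ∏ i, qv i = 2 ∨ 6 ≤ N / ((q₀ : Nat.Primes) : ℕ) * ∏ i, qv i) ∧
    -- the data at the lower level and the pair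
    ∃ hm : IhqData (N / ((q₀ : Nat.Primes) : ℕ) * ∏ i, qv i)
        (ihqPrimes Tc qv ∘ (Subtype.val : {j // j ≠ (Sum.inl q₀ : ↥Tc ⊕ Fin r)} → _))
        (ihqOrders Tc qv p ∘ (Subtype.val : {j // j ≠ (Sum.inl q₀ : ↥Tc ⊕ Fin r)} → _)),
      IhtkPair (N * ∏ i, qv i)
        (ihqKappa (h.comp (Subtype.val : {j // j ≠ (Sum.inl q₀ : ↥Tc ⊕ Fin r)} → _)
          Subtype.val_injective)).ker
        (N / ((q₀ : Nat.Primes) : ℕ) * ∏ i, qv i) (ihqKappa hm).ker ((q₀ : Nat.Primes) : ℕ) ∧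
      IhfLevel p (N / ((q₀ : Nat.Primes) : ℕ) * ∏ i, qv i) (ihqKappa hm).ker := by
  classical
  set q := ((q₀ : Nat.Primes) : ℕ) with hq
  have hqpr : q.Prime := (q₀ : Nat.Primes).2
  have hqN0 : q ∣ N := ((hTc q₀).1 q₀.2).1
  have hq2 : q ≠ 2 := ((hTc q₀).1 q₀.2).2
  obtain ⟨N₀, hN₀⟩ := hqN0
  have hdiv : N / q = N₀ := by
    rw [hN₀]
    exact Nat.mul_div_cancel_left N₀ hqpr.pos
  rw [hdiv]
  have hN₀pos : 0 < N₀ := by
    rcases Nat.eq_zero_or_pos N₀ with h0 | h0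
    · rw [h0, mul_zero] at hN₀; omega
    · exact h0
  have hN₀dvd : N₀ ∣ N := ⟨q, by rw [hN₀, mul_comm]⟩
  have hN₀sq : Squarefree N₀ := hNsq.squarefree_of_dvd hN₀dvd
  have hqN₀ : ¬ q ∣ N₀ := by
    rintro ⟨e, rfl⟩
    have := Nat.squarefree_iff_prime_squarefree.mp hNsq q hqpr
    exact this ⟨e, by rw [hN₀]; ring⟩
  have hN₀ne : N₀ ≠ N := by
    intro h0
    have : N₀ * 1 = N₀ * q := by rw [mul_one, mul_comm]; rw [← hN₀]; exact h0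
    have := Nat.eq_of_mul_eq_mul_left hN₀pos this
    have := hqpr.one_lt
    omega
  have h2N₀ : 2 ∣ N₀ := by
    have : 2 ∣ q * N₀ := hN₀ ▸ h2N
    rcases (Nat.Prime.dvd_mul Nat.prime_two).mp this with h0 | h0
    · exact absurd ((Nat.prime_dvd_prime_iff_eq Nat.prime_two hqpr).mp h0).symm hq2
    · exact h0
  have hqvN₀ : ∀ i, ¬ qv i ∣ N₀ := fun i h0 => hqN i (h0.trans hN₀dvd)
  have hprodpos : 0 < ∏ i, qv i := Finset.prod_pos fun i _ => (hqprime i).pos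
  have heq : N * ∏ i, qv i = N₀ * (∏ i, qv i) * q := by rw [hN₀]; ring
  have hNmpos : 0 < N₀ * ∏ i, qv i := Nat.mul_pos hN₀pos hprodpos
  have hNmsq : Squarefree (N₀ * ∏ i, qv i) :=
    ihq_squarefree_level qv hN₀sq hqinj hqprime hqvN₀
  have hqne : ∀ i, qv i ≠ q := fun i h0 => hqN i (h0 ▸ ⟨N₀, hN₀⟩)
  have hqNm : ¬ q ∣ N₀ * ∏ i, qv i := by
    intro h0
    rcases (Nat.Prime.dvd_mul hqpr).mp h0 with h1 | h1
    · exact hqN₀ h1
    · obtain ⟨i, hi⟩ := ihq_prime_dvd_prod qv hqprime hqpr h1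
      exact hqne i hi
  have h2Nm : 2 ∣ N₀ * ∏ i, qv i := Dvd.dvd.mul_right h2N₀ _
  -- the data
  have h' := h.comp (Subtype.val : {j // j ≠ (Sum.inl q₀ : ↥Tc ⊕ Fin r)} → _)
    Subtype.val_injective
  have hne' : ∀ j : {j // j ≠ (Sum.inl q₀ : ↥Tc ⊕ Fin r)},
      (ihqPrimes Tc qv ∘ Subtype.val) j ≠ q := by
    intro j hj
    apply j.2
    apply h.inj
    exact hj
  have hm : IhqData (N₀ * ∏ i, qv i)
      (ihqPrimes Tc qv ∘ (Subtype.val : {j // j ≠ (Sum.inl q₀ : ↥Tc ⊕ Fin r)} → _))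
      (ihqOrders Tc qv p ∘ (Subtype.val : {j // j ≠ (Sum.inl q₀ : ↥Tc ⊕ Fin r)} → _)) :=
    ihtk_data_descend h' hqpr heq hne'
  refine ⟨hN₀dvd, hN₀ne, hN₀pos, h2N₀, hN₀sq, ihq_two_or_six_le hN₀sq h2N₀, hqvN₀, heq, hNmpos,
    hNmsq, hqNm, ihq_two_or_six_le hNmsq h2Nm, hm, ?_, ?_⟩
  · exact ihtk_pair_of_data _ hm hqpr heq hqNm
  · exact ihq_level hp hp5 hNmsq hm (fun j => ihqOrders_pow Tc qv j.1)

end Lower

end Fermat.Agent.Ihara
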